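/-
GATE-F (S40) / node GF-TROP, file 1 (helper86): **the order of the normalised reduction**.

`R : RedData K F k Ft` a Gauss-type valuation of `F/K` which is unramified over the base
(`Unram R`: every `u ≠ 0` is a constant times a unit of `R.Rw`), `Pl` a place of the residue
function field `Ft/k`.  For `u : F`, `u ≠ 0`,

  `ordRed R hun Pl u := ord_Pl (red (c u))`,  `c u` a unit of `R.Rw`,

is independent of the constant `c`, additive in `u`, kills constants, `ordRed (v ^ n) = n ordRed v`.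
For `p`-divisible units this gives, modulo `p`, a homomorphism on the Kummer group
`Kum K F p = {u | p ∣ div u} / (Fˣ)^p`:

  `tropAt R hun Pl p : Additive (Kum K F p) →+ ZMod p`,
  `trop R hun P p   : Additive (Kum K F p) →+ (ι → ZMod p)`  (`P : ι → Place k Ft` the nodes).
-/
import Mathlib
import Fermat.Agent.GJ.J1.Defs
import Fermat.Agent.GJ.J2.EigIface
import Fermat.Agent.S24.PlaceBasic

set_option autoImplicit false
set_option linter.unusedSectionVars false

noncomputable section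

open AlgebraicCurve

namespace Fermat.Agent.GF.Trop

open Fermat.Agent.GJ.J1 Fermat.Agent.GJ.KumGroup Fermat.Agent.S24

variable {K F k Ft : Type*} [Field K] [Field F] [Algebra K F] [Field k] [Field Ft] [Algebra k Ft]

/-- `x` is a unit of the valuation ring of `R`. -/
def IsU (R : RedData K F k Ft) (x : F) : Prop := x ≠ 0 ∧ x ∈ R.Rw ∧ x⁻¹ ∈ R.Rw

/-- the unramifiedness binder (shape of `GS/Loc2/KerStar`, `GS/F/KerBridge.unram_redDataBar`). -/
def Unram (R : RedData K F k Ft) : Prop :=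
  ∀ y : F, y ≠ 0 → ∃ c : K, c ≠ 0 ∧ algebraMap K F c * y ∈ R.Rw ∧ (algebraMap K F c * y)⁻¹ ∈ R.Rw

section Units

variable {R : RedData K F k Ft}

theorem IsU.mul {x y : F} (hx : IsU R x) (hy : IsU R y) : IsU R (x * y) :=
  ⟨mul_ne_zero hx.1 hy.1, mul_mem hx.2.1 hy.2.1, by rw [mul_inv]; exact mul_mem hx.2.2 hy.2.2⟩

theorem IsU.inv {x : F} (hx : IsU R x) : IsU R x⁻¹ :=
  ⟨inv_ne_zero hx.1, hx.2.2, by rw [inv_inv]; exact hx.2.1⟩

theorem isU_one : IsU R (1 : F) := ⟨one_ne_zero, R.Rw.one_mem, by rw [inv_one]; exact R.Rw.one_mem⟩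

theorem IsU.pow {x : F} (hx : IsU R x) (n : ℕ) : IsU R (x ^ n) :=
  ⟨pow_ne_zero n hx.1, pow_mem hx.2.1 n, by rw [← inv_pow]; exact pow_mem hx.2.2 n⟩

/-- the reduction of a unit is nonzero -/
theorem IsU.red_ne_zero {x : F} (hx : IsU R x) : R.red ⟨x, hx.2.1⟩ ≠ 0 := by
  intro h0
  have e : (⟨x, hx.2.1⟩ : R.Rw) * ⟨x⁻¹, hx.2.2⟩ = 1 := Subtype.ext (mul_inv_cancel₀ hx.1)
  have := congrArg R.red e
  rw [map_mul, h0, zero_mul, map_one] at this
  exact zero_ne_one this

/-- an element with nonzero reduction is a unit -/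
theorem isU_of_red_ne_zero {x : F} (hx : x ∈ R.Rw) (h : R.red ⟨x, hx⟩ ≠ 0) : IsU R x := by
  have hx0 : x ≠ 0 := by
    rintro rfl
    exact h (map_zero R.red)
  have hu : IsUnit (⟨x, hx⟩ : R.Rw) := by
    by_contra hnu
    exact h ((R.red_eq_zero_iff _).mpr ((IsLocalRing.mem_maximalIdeal _).mpr hnu))
  obtain ⟨u, hu⟩ := hu
  have h' : x * ((↑u⁻¹ : R.Rw) : F) = 1 := by
    have := congrArg Subtype.val (Units.mul_inv u)
    rw [hu] at this
    exact this
  refine ⟨hx0, hx, ?_⟩
  rw [← eq_inv_of_mul_eq_one_right h']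
  exact (↑u⁻¹ : R.Rw).2

/-- a constant which is a unit of `R.Rw` is a unit of `A`, and its reduction is the (nonzero)
residue. -/
theorem isU_algebraMap_iff {a : K} :
    IsU R (algebraMap K F a) ↔ a ≠ 0 ∧ a ∈ R.A ∧ a⁻¹ ∈ R.A := by
  unfold IsU
  rw [← map_inv₀, ← R.mem_A_iff, ← R.mem_A_iff]
  constructor
  · rintro ⟨h0, h1, h2⟩
    exact ⟨fun h => h0 (by rw [h, map_zero]), h1, h2⟩
  · rintro ⟨h0, h1, h2⟩
    exact ⟨by simpa using h0, h1, h2⟩

theorem res_ne_zero_of_inv_mem {a : K} (ha : a ∈ R.A) (ha0 : a ≠ 0) (hai : a⁻¹ ∈ R.A) :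
    R.res ⟨a, ha⟩ ≠ 0 := by
  intro h0
  have e : (⟨a, ha⟩ : R.A) * ⟨a⁻¹, hai⟩ = 1 := Subtype.ext (mul_inv_cancel₀ ha0)
  have := congrArg R.res e
  rw [map_mul, h0, zero_mul, map_one] at this
  exact zero_ne_one this

end Units

/-! ### the order of the normalised reduction -/

section OrdRed

variable (R : RedData K F k Ft) (hun : Unram R) (Pl : Place k Ft)

open Classical in
/-- **the order at `Pl` of the normalised reduction of `u`** -/
def ordRed (u : F) : ℤ :=
  if h : u ≠ 0 then Pl.ord (R.red ⟨algebraMap K F (hun u h).choose * u, (hun u h).choose_spec.2.1⟩)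
  else 0

variable {R}

/-- `ordRed` is computed by ANY normalising constant -/
theorem ordRed_eq {u : F} (hu : u ≠ 0) {c : K} (hcu : IsU R (algebraMap K F c * u)) :
    ordRed R hun Pl u = Pl.ord (R.red ⟨algebraMap K F c * u, hcu.2.1⟩) := by
  unfold ordRed
  rw [dif_pos hu]
  obtain ⟨hc0, hm, hmi⟩ := (hun u hu).choose_spec
  set c' := (hun u hu).choose with hc'
  have hc0' : c ≠ 0 := by
    rintro rfl
    rw [map_zero, zero_mul] at hcu
    exact hcu.1 rfl
  -- `a := c' / c` is a unit of `A`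
  have hU' : IsU R (algebraMap K F c' * u) :=
    ⟨mul_ne_zero (by simpa using hc0) hu, hm, hmi⟩
  have ha : IsU R (algebraMap K F (c' / c)) := by
    have := hU'.mul hcu.inv
    have e : algebraMap K F c' * u * (algebraMap K F c * u)⁻¹ = algebraMap K F (c' / c) := by
      rw [map_div₀]
      have hcF : algebraMap K F c ≠ 0 := by simpa using hc0'
      field_simp
    rwa [e] at this
  obtain ⟨ha0, haA, haiA⟩ := isU_algebraMap_iff.mp ha
  have e : (⟨algebraMap K F c' * u, hm⟩ : R.Rw) =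
      ⟨algebraMap K F (c' / c), ha.2.1⟩ * ⟨algebraMap K F c * u, hcu.2.1⟩ := by
    apply Subtype.ext
    show algebraMap K F c' * u = algebraMap K F (c' / c) * (algebraMap K F c * u)
    rw [map_div₀]
    have hcF : algebraMap K F c ≠ 0 := by simpa using hc0'
    field_simp
  rw [e, map_mul]
  have e2 : R.red ⟨algebraMap K F (c' / c), ha.2.1⟩ = algebraMap k Ft (R.res ⟨c' / c, haA⟩) :=
    R.red_algebraMap ⟨c' / c, haA⟩
  rw [e2, Place.ord_mul Pl (by simpa using res_ne_zero_of_inv_mem haA ha0 haiA) hcu.red_ne_zero,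
    PlaceB.ord_algebraMap Pl (res_ne_zero_of_inv_mem haA ha0 haiA), zero_add]

/-- for a unit `u` of `R.Rw`: `ordRed u = ord (red u)` -/
theorem ordRed_of_isU {u : F} (hu : IsU R u) :
    ordRed R hun Pl u = Pl.ord (R.red ⟨u, hu.2.1⟩) := by
  have h1 : IsU R (algebraMap K F 1 * u) := by rw [map_one, one_mul]; exact hu
  rw [ordRed_eq hun Pl hu.1 h1]
  congr 2
  apply Subtype.ext
  show algebraMap K F 1 * u = u
  rw [map_one, one_mul]

theorem ordRed_mul {u v : F} (hu : u ≠ 0) (hv : v ≠ 0) :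
    ordRed R hun Pl (u * v) = ordRed R hun Pl u + ordRed R hun Pl v := by
  obtain ⟨c, hc0, hm, hmi⟩ := hun u hu
  obtain ⟨d, hd0, hn, hni⟩ := hun v hv
  have hU : IsU R (algebraMap K F c * u) := ⟨mul_ne_zero (by simpa using hc0) hu, hm, hmi⟩
  have hV : IsU R (algebraMap K F d * v) := ⟨mul_ne_zero (by simpa using hd0) hv, hn, hni⟩
  have hUV : IsU R (algebraMap K F (c * d) * (u * v)) := by
    have := hU.mul hV
    have e : algebraMap K F c * u * (algebraMap K F d * v) = algebraMap K F (c * d) * (u * v) := by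
      rw [map_mul]; ring
    rwa [e] at this
  rw [ordRed_eq hun Pl (mul_ne_zero hu hv) hUV, ordRed_eq hun Pl hu hU, ordRed_eq hun Pl hv hV,
    ← Place.ord_mul Pl hU.red_ne_zero hV.red_ne_zero, ← map_mul]
  congr 2
  apply Subtype.ext
  show algebraMap K F (c * d) * (u * v) = algebraMap K F c * u * (algebraMap K F d * v)
  rw [map_mul]; ring

theorem ordRed_algebraMap {a : K} (ha : a ≠ 0) : ordRed R hun Pl (algebraMap K F a) = 0 := by
  have haF : algebraMap K F a ≠ 0 := by simpa using ha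
  have h1 : IsU R (algebraMap K F a⁻¹ * algebraMap K F a) := by
    rw [← map_mul, inv_mul_cancel₀ ha, map_one]
    exact isU_one
  rw [ordRed_eq hun Pl haF h1]
  have e : (⟨algebraMap K F a⁻¹ * algebraMap K F a, h1.2.1⟩ : R.Rw) = 1 := by
    apply Subtype.ext
    show algebraMap K F a⁻¹ * algebraMap K F a = 1
    rw [← map_mul, inv_mul_cancel₀ ha, map_one]
  rw [e, map_one, Place.ord_one]

theorem ordRed_one : ordRed R hun Pl (1 : F) = 0 := by
  have := ordRed_algebraMap (R := R) hun Pl (one_ne_zero (α := K))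
  rwa [map_one] at this

theorem ordRed_pow {v : F} (hv : v ≠ 0) (n : ℕ) :
    ordRed R hun Pl (v ^ n) = n * ordRed R hun Pl v := by
  induction n with
  | zero => simp [ordRed_one]
  | succ n ih =>
    rw [pow_succ, ordRed_mul hun Pl (pow_ne_zero n hv) hv, ih]
    push_cast
    ring

theorem ordRed_inv {v : F} (hv : v ≠ 0) : ordRed R hun Pl v⁻¹ = -ordRed R hun Pl v := by
  have h := ordRed_mul hun Pl hv (inv_ne_zero hv)
  rw [mul_inv_cancel₀ hv, ordRed_one] at h
  omega

end OrdRed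

/-! ### the tropical map on the Kummer group -/

section Trop

variable (R : RedData K F k Ft) (hun : Unram R) (Pl : Place k Ft) (p : ℕ)

/-- `u ↦ ordRed u` on units, as a monoid homomorphism to `Multiplicative ℤ` -/
def ordRedHom : Fˣ →* Multiplicative ℤ where
  toFun u := Multiplicative.ofAdd (ordRed R hun Pl (u : F))
  map_one' := by
    show Multiplicative.ofAdd (ordRed R hun Pl ((1 : Fˣ) : F)) = 1
    rw [Units.val_one, ordRed_one]
    rfl
  map_mul' u v := by
    show Multiplicative.ofAdd (ordRed R hun Pl ((u * v : Fˣ) : F)) = _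
    rw [Units.val_mul, ordRed_mul hun Pl u.ne_zero v.ne_zero]
    rfl

@[simp] theorem ordRedHom_apply (u : Fˣ) :
    Multiplicative.toAdd (ordRedHom R hun Pl u) = ordRed R hun Pl (u : F) := rfl

/-- `u ↦ ordRed u mod p` on the `p`-divisible units -/
def tropUnits : pDivUnits K F p →* Multiplicative (ZMod p) where
  toFun u := Multiplicative.ofAdd ((ordRed R hun Pl ((u : Fˣ) : F) : ℤ) : ZMod p)
  map_one' := by
    show Multiplicative.ofAdd ((ordRed R hun Pl (((1 : pDivUnits K F p) : Fˣ) : F) : ℤ) : ZMod p) = 1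
    rw [OneMemClass.coe_one, Units.val_one, ordRed_one, Int.cast_zero]
    rfl
  map_mul' u v := by
    show Multiplicative.ofAdd
      ((ordRed R hun Pl (((u * v : pDivUnits K F p) : Fˣ) : F) : ℤ) : ZMod p) = _
    rw [Subgroup.coe_mul, Units.val_mul,
      ordRed_mul hun Pl (u : Fˣ).ne_zero (v : Fˣ).ne_zero, Int.cast_add]
    rfl

theorem tropUnits_pPowers (x : pDivUnits K F p) (hx : x ∈ pPowers K F p) :
    tropUnits R hun Pl p x = 1 := by
  obtain ⟨w, hw⟩ := hx
  show Multiplicative.ofAdd ((ordRed R hun Pl ((x : Fˣ) : F) : ℤ) : ZMod p) = 1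
  have e : ((x : Fˣ) : F) = (w : F) ^ p := by
    have : (x : Fˣ) = w ^ p := hw.symm
    rw [this, Units.val_pow_eq_pow_val]
  rw [e, ordRed_pow hun Pl w.ne_zero]
  push_cast
  rw [ZMod.natCast_self, zero_mul]
  rfl

/-- **the tropical map at one place**: `[u] ↦ ord_Pl (red (c u)) mod p` -/
def tropAt : Additive (Kum K F p) →+ ZMod p :=
  MonoidHom.toAdditiveLeft (QuotientGroup.lift (pPowers K F p) (tropUnits R hun Pl p)
    (tropUnits_pPowers R hun Pl p))

theorem tropAt_mk (u : pDivUnits K F p) :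
    tropAt R hun Pl p (Additive.ofMul (Kum.mk u)) =
      ((ordRed R hun Pl ((u : Fˣ) : F) : ℤ) : ZMod p) := rfl

variable {ι : Type*} (P : ι → Place k Ft)

/-- **the tropical map**: `[u] ↦ (ord_{P j} (red (c u)) mod p)_j` -/
def trop : Additive (Kum K F p) →+ (ι → ZMod p) :=
  AddMonoidHom.pi fun j => tropAt R hun (P j) p

theorem trop_apply (x : Additive (Kum K F p)) (j : ι) :
    trop R hun p P x j = tropAt R hun (P j) p x := rfl

theorem trop_mk (u : pDivUnits K F p) (j : ι) :
    trop R hun p P (Additive.ofMul (Kum.mk u)) j =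
      ((ordRed R hun (P j) ((u : Fˣ) : F) : ℤ) : ZMod p) := rfl

end Trop

end Fermat.Agent.GF.Trop

end
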