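/-
GATE-F (S40) / node GF-TROP, file 2 (helper86): **every Kummer class has a representative which is
a unit for BOTH Gauss valuations** (over an algebraically closed base: the value group is divisible).

`R1 : RedData K F k Ft1`, `R2 : RedData K F k Ft2` over the same base (`RedCompat`), pair reduction
onto (`PairSurj`, helper48), `R2` unramified over the base (`Unram R2`), the base valuation
archimedean (`harch`, `GH/Inst/Arch.harch` for a place of `ℚ̄`).

* `exists_approx` : for `c ∈ A`, `c ≠ 0`: some `g` with `red₁ g = 1` and `red₂ (g / c) = 1`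
  (value approximation: `w₁(g) = 0`, `w₂(g) = v(c)`);
* `exists_bothUnit_mul_pow` : for `u ≠ 0` there are a constant `a ≠ 0` and `h ≠ 0` with
  `a u h^p` a unit for both valuations (every `p`-th root exists in `K`);
* `exists_bothUnit_rep` : every class of `Kum K F p` is represented by a `p`-divisible unit which
  is a unit for both valuations.
-/
import Mathlib
import Fermat.Agent.GF.Trop.OrdRed
import Fermat.Agent.GS.Nodal.ROfSurj2

set_option autoImplicit false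
set_option linter.unusedSectionVars false

noncomputable section

open AlgebraicCurve

namespace Fermat.Agent.GF.Trop

open Fermat.Agent.GJ.J1 Fermat.Agent.GJ.KumGroup Fermat.Agent.S24 Fermat.Agent.GK.MultiVal
open Fermat.Agent.GS.Nodal.ROfSurj2

variable {K F k Ft1 Ft2 : Type*} [Field K] [Field F] [Algebra K F] [Field k]
  [Field Ft1] [Algebra k Ft1] [Field Ft2] [Algebra k Ft2]
variable {R1 : RedData K F k Ft1} {R2 : RedData K F k Ft2}

/-- the archimedean binder for the base valuation (`GH/Inst/Arch.harch`). -/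
def Arch (A : ValuationSubring K) : Prop :=
  ∀ x y : K, A.valuation x < 1 → y ≠ 0 → ∃ n : ℕ, A.valuation x ^ n ≤ A.valuation y

/-- a constant whose image is a non-unit of `R.Rw` has valuation `< 1`. -/
theorem valuation_lt_one_of_red_eq_zero {Ft : Type*} [Field Ft] [Algebra k Ft]
    (R : RedData K F k Ft) {d : K} (hd : d ∈ R.A)
    (h0 : R.red ⟨algebraMap K F d, (R.mem_A_iff d).1 hd⟩ = 0) : R.A.valuation d < 1 := by
  by_contra hge
  rw [not_lt] at hge
  have h1 : R.A.valuation d = 1 :=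
    le_antisymm ((R.A.valuation_le_one_iff d).mpr hd) hge
  have hd0 : d ≠ 0 := by
    rintro rfl
    rw [map_zero] at h1
    exact zero_ne_one h1
  have hinv : d⁻¹ ∈ R.A := by
    rw [← R.A.valuation_le_one_iff, map_inv₀, h1, inv_one]
  have hU : IsU R (algebraMap K F d) := isU_algebraMap_iff.mpr ⟨hd0, hd, hinv⟩
  exact hU.red_ne_zero h0

/-- a constant of valuation `< 1` reduces to zero. -/
theorem res_eq_zero_of_valuation_lt_one {Ft : Type*} [Field Ft] [Algebra k Ft]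
    (R : RedData K F k Ft) {d : K} (hd : d ∈ R.A) (hlt : R.A.valuation d < 1) :
    R.res ⟨d, hd⟩ = 0 := by
  by_contra hne
  have hne' : R.red ⟨algebraMap K F d, (R.mem_A_iff d).1 hd⟩ ≠ 0 := by
    rw [R.red_algebraMap ⟨d, hd⟩]
    simpa using hne
  have hU := isU_of_red_ne_zero ((R.mem_A_iff d).1 hd) hne'
  obtain ⟨hd0, -, hinv⟩ := isU_algebraMap_iff.mp hU
  have h1 : R.A.valuation d⁻¹ ≤ 1 := (R.A.valuation_le_one_iff _).mpr hinv
  rw [map_inv₀] at h1
  have hpos : 0 < R.A.valuation d := zero_lt_iff.mpr ((R.A.valuation.ne_zero_iff).mpr hd0)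
  have := (inv_le_one₀ hpos).mp h1
  exact not_lt.mpr this hlt

/-- **value approximation**: for `c ∈ A`, `c ≠ 0`, some `g` is `≡ 1` for the first valuation and
`g / c ≡ 1` for the second. -/
theorem exists_approx (hc : RedCompat R1 R2) (hPS : PairSurj R1 R2) (hun2 : Unram R2)
    (harch : Arch R1.A) {c : K} (hcA : c ∈ R1.A) (hc0 : c ≠ 0) :
    ∃ g : F, (∃ h1 : g ∈ R1.Rw, R1.red ⟨g, h1⟩ = 1) ∧
      ∃ h2 : g / algebraMap K F c ∈ R2.Rw, R2.red ⟨g / algebraMap K F c, h2⟩ = 1 := by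
  obtain ⟨e₁, h11, h12, r11, r12⟩ := hPS ((1 : Ft1), (0 : Ft2))
  obtain ⟨e₂, h21, h22, r21, r22⟩ := hPS ((0 : Ft1), (1 : Ft2))
  simp only at r11 r12 r21 r22
  have he₁0 : e₁ ≠ 0 := by
    rintro rfl
    have : R1.red ⟨0, h11⟩ = 0 := map_zero R1.red
    rw [this] at r11
    exact zero_ne_one r11
  -- `e₁ = d · (unit of R2)`, `v(d) < 1`
  obtain ⟨c₁, hc₁0, hm, hmi⟩ := hun2 e₁ he₁0
  have hV : IsU R2 (algebraMap K F c₁ * e₁) :=
    ⟨mul_ne_zero (by simpa using hc₁0) he₁0, hm, hmi⟩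
  set d : K := c₁⁻¹ with hd
  have hd0 : d ≠ 0 := inv_ne_zero hc₁0
  have hc₁F : algebraMap K F c₁ ≠ 0 := by simpa using hc₁0
  have hdF : algebraMap K F d = e₁ * (algebraMap K F c₁ * e₁)⁻¹ := by
    rw [hd, map_inv₀]
    field_simp
  have hdRw : algebraMap K F d ∈ R2.Rw := by
    rw [hdF]
    exact mul_mem h12 hV.2.2
  have hdA2 : d ∈ R2.A := (R2.mem_A_iff d).2 hdRw
  have hdred : R2.red ⟨algebraMap K F d, (R2.mem_A_iff d).1 hdA2⟩ = 0 := by
    have e : (⟨algebraMap K F d, (R2.mem_A_iff d).1 hdA2⟩ : R2.Rw) =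
        ⟨e₁, h12⟩ * ⟨(algebraMap K F c₁ * e₁)⁻¹, hV.2.2⟩ := Subtype.ext hdF
    rw [e, map_mul, r12, zero_mul]
  have hdlt2 : R2.A.valuation d < 1 := valuation_lt_one_of_red_eq_zero R2 hdA2 hdred
  have hdlt : R1.A.valuation d < 1 := by rw [hc.A_eq]; exact hdlt2
  obtain ⟨n, hn⟩ := harch d (c * d) hdlt (mul_ne_zero hc0 hd0)
  -- `d ^ n / c` has valuation `< 1`
  have hlt : R1.A.valuation (d ^ n / c) < 1 := by
    have hvc : R1.A.valuation c ≠ 0 := (R1.A.valuation.ne_zero_iff).mpr hc0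
    have hvcpos : 0 < R1.A.valuation c := zero_lt_iff.mpr hvc
    rw [map_div₀, map_pow, div_lt_one₀ hvcpos]
    calc R1.A.valuation d ^ n ≤ R1.A.valuation (c * d) := hn
      _ = R1.A.valuation c * R1.A.valuation d := map_mul _ _ _
      _ < R1.A.valuation c * 1 := by
          exact mul_lt_mul_of_pos_left hdlt hvcpos
      _ = R1.A.valuation c := mul_one _
  have hqA1 : d ^ n / c ∈ R1.A := (R1.A.valuation_le_one_iff _).mp hlt.le
  have hqA2 : d ^ n / c ∈ R2.A := hc.A_eq ▸ hqA1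
  have hlt2 : R2.A.valuation (d ^ n / c) < 1 := by rw [← hc.A_eq]; exact hlt
  have hres2 : R2.res ⟨d ^ n / c, hqA2⟩ = 0 := res_eq_zero_of_valuation_lt_one R2 hqA2 hlt2
  have hcA2 : c ∈ R2.A := hc.A_eq ▸ hcA
  have hcF : algebraMap K F c ≠ 0 := by simpa using hc0
  refine ⟨e₁ ^ n + algebraMap K F c * e₂, ⟨?_, ?_⟩, ?_⟩
  · exact add_mem (pow_mem h11 n) (mul_mem ((R1.mem_A_iff c).1 hcA) h21)
  · have e : (⟨e₁ ^ n + algebraMap K F c * e₂,
        add_mem (pow_mem h11 n) (mul_mem ((R1.mem_A_iff c).1 hcA) h21)⟩ : R1.Rw) =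
        ⟨e₁, h11⟩ ^ n + ⟨algebraMap K F c, (R1.mem_A_iff c).1 hcA⟩ * ⟨e₂, h21⟩ := rfl
    rw [e, map_add, map_pow, map_mul, r11, r21, one_pow, mul_zero, add_zero]
  · -- `g / c = (d^n / c) · v₁^n + e₂`
    have key : algebraMap K F (d ^ n) * (algebraMap K F c₁ * e₁) ^ n = e₁ ^ n := by
      rw [map_pow, ← mul_pow, hd, map_inv₀, ← mul_assoc, inv_mul_cancel₀ hc₁F, one_mul]
    have hsplit : (e₁ ^ n + algebraMap K F c * e₂) / algebraMap K F c =
        algebraMap K F (d ^ n / c) * (algebraMap K F c₁ * e₁) ^ n + e₂ := by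
      rw [map_div₀, div_mul_eq_mul_div, key, add_div, mul_div_cancel_left₀ _ hcF]
    have hmem : algebraMap K F (d ^ n / c) * (algebraMap K F c₁ * e₁) ^ n + e₂ ∈ R2.Rw :=
      add_mem (mul_mem ((R2.mem_A_iff _).1 hqA2) (pow_mem hV.2.1 n)) h22
    refine ⟨hsplit ▸ hmem, ?_⟩
    have e : (⟨(e₁ ^ n + algebraMap K F c * e₂) / algebraMap K F c, hsplit ▸ hmem⟩ : R2.Rw) =
        ⟨algebraMap K F (d ^ n / c), (R2.mem_A_iff _).1 hqA2⟩ *
          ⟨algebraMap K F c₁ * e₁, hV.2.1⟩ ^ n + ⟨e₂, h22⟩ := Subtype.ext hsplit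
    rw [e, map_add, map_mul, R2.red_algebraMap ⟨d ^ n / c, hqA2⟩, hres2, map_zero, zero_mul,
      zero_add, r22]

/-- **normalisation for both valuations**: every `u ≠ 0` becomes a unit for both valuations after
multiplication by a constant and a `p`-th power. -/
theorem exists_bothUnit_mul_pow (hc : RedCompat R1 R2) (hPS : PairSurj R1 R2) (hun1 : Unram R1)
    (hun2 : Unram R2) (harch : Arch R1.A) {p : ℕ} (hp : 0 < p)
    (hroot : ∀ a : K, ∃ b : K, b ^ p = a) {u : F} (hu : u ≠ 0) :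
    ∃ (a : K) (h : F), a ≠ 0 ∧ h ≠ 0 ∧ IsU R1 (algebraMap K F a * u * h ^ p) ∧
      IsU R2 (algebraMap K F a * u * h ^ p) := by
  obtain ⟨c₁, hc₁0, hm, hmi⟩ := hun1 u hu
  have hc₁F : algebraMap K F c₁ ≠ 0 := by simpa using hc₁0
  have hu₁0 : algebraMap K F c₁ * u ≠ 0 := mul_ne_zero hc₁F hu
  have hU₁ : IsU R1 (algebraMap K F c₁ * u) := ⟨hu₁0, hm, hmi⟩
  obtain ⟨c₂, hc₂0, hm2, hmi2⟩ := hun2 _ hu₁0
  have hc₂F : algebraMap K F c₂ ≠ 0 := by simpa using hc₂0
  have hU₂ : IsU R2 (algebraMap K F c₂ * (algebraMap K F c₁ * u)) :=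
    ⟨mul_ne_zero hc₂F hu₁0, hm2, hmi2⟩
  obtain ⟨b, hb⟩ := hroot c₂
  have hb0 : b ≠ 0 := by
    rintro rfl
    rw [zero_pow hp.ne'] at hb
    exact hc₂0 hb.symm
  have hbF : algebraMap K F b ≠ 0 := by simpa using hb0
  have hbp : algebraMap K F c₂ = algebraMap K F b ^ p := by rw [← map_pow, hb]
  rcases R1.A.mem_or_inv_mem b with hbA | hbA
  · obtain ⟨g, ⟨hg1, rg1⟩, hg2, rg2⟩ := exists_approx hc hPS hun2 harch hbA hb0
    have hG1 : IsU R1 g := isU_of_red_ne_zero hg1 (by rw [rg1]; exact one_ne_zero)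
    have hG2 : IsU R2 (g / algebraMap K F b) :=
      isU_of_red_ne_zero hg2 (by rw [rg2]; exact one_ne_zero)
    refine ⟨c₁, g, hc₁0, hG1.1, hU₁.mul (hG1.pow p), ?_⟩
    have e : algebraMap K F c₁ * u * g ^ p =
        algebraMap K F c₂ * (algebraMap K F c₁ * u) * (g / algebraMap K F b) ^ p := by
      rw [hbp, div_pow]
      field_simp
    rw [e]
    exact hU₂.mul (hG2.pow p)
  · have hbi0 : b⁻¹ ≠ 0 := inv_ne_zero hb0
    obtain ⟨g, ⟨hg1, rg1⟩, hg2, rg2⟩ := exists_approx hc hPS hun2 harch hbA hbi0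
    have hG1 : IsU R1 g := isU_of_red_ne_zero hg1 (by rw [rg1]; exact one_ne_zero)
    have hG2 : IsU R2 (g / algebraMap K F b⁻¹) :=
      isU_of_red_ne_zero hg2 (by rw [rg2]; exact one_ne_zero)
    refine ⟨c₁, g⁻¹, hc₁0, inv_ne_zero hG1.1, hU₁.mul (hG1.inv.pow p), ?_⟩
    have e : algebraMap K F c₁ * u * g⁻¹ ^ p =
        algebraMap K F c₂ * (algebraMap K F c₁ * u) * ((g / algebraMap K F b⁻¹)⁻¹) ^ p := by
      rw [hbp, map_inv₀, inv_pow, inv_pow, div_pow, inv_pow]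
      have hg0 := hG1.1
      field_simp
    rw [e]
    exact hU₂.mul (hG2.inv.pow p)

/-- `x` is a unit for both valuations. -/
def BothU (R1 : RedData K F k Ft1) (R2 : RedData K F k Ft2) (x : F) : Prop := IsU R1 x ∧ IsU R2 x

theorem BothU.mul {x y : F} (hx : BothU R1 R2 x) (hy : BothU R1 R2 y) : BothU R1 R2 (x * y) :=
  ⟨hx.1.mul hy.1, hx.2.mul hy.2⟩

theorem BothU.inv {x : F} (hx : BothU R1 R2 x) : BothU R1 R2 x⁻¹ := ⟨hx.1.inv, hx.2.inv⟩

theorem BothU.pow {x : F} (hx : BothU R1 R2 x) (n : ℕ) : BothU R1 R2 (x ^ n) :=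
  ⟨hx.1.pow n, hx.2.pow n⟩

/-- **every Kummer class has a representative which is a unit for both valuations.** -/
theorem exists_bothUnit_rep (hc : RedCompat R1 R2) (hPS : PairSurj R1 R2) (hun1 : Unram R1)
    (hun2 : Unram R2) (harch : Arch R1.A) {p : ℕ} (hp : 0 < p)
    (hroot : ∀ a : K, ∃ b : K, b ^ p = a) (x : Kum K F p) :
    ∃ u : pDivUnits K F p, Kum.mk u = x ∧ BothU R1 R2 (((u : Fˣ) : F)) := by
  obtain ⟨u₀, rfl⟩ := Kum.mk_surjective x
  obtain ⟨a, h, ha0, hh0, hU1, hU2⟩ :=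
    exists_bothUnit_mul_pow hc hPS hun1 hun2 harch hp hroot (u₀ : Fˣ).ne_zero
  obtain ⟨b, hb⟩ := hroot a
  have hb0 : b ≠ 0 := by
    rintro rfl
    rw [zero_pow hp.ne'] at hb
    exact ha0 hb.symm
  have hbF : algebraMap K F b ≠ 0 := by simpa using hb0
  let w : Fˣ := Units.mk0 (algebraMap K F b * h) (mul_ne_zero hbF hh0)
  have hwmem : w ^ p ∈ pDivUnits K F p := pow_mem_pDivUnits K F p w
  refine ⟨u₀ * ⟨w ^ p, hwmem⟩, ?_, ?_⟩
  · rw [eq_comm, Kum.mk_eq_mk_iff]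
    exact ⟨w, rfl⟩
  · have e : (((u₀ * ⟨w ^ p, hwmem⟩ : pDivUnits K F p) : Fˣ) : F) =
        algebraMap K F a * ((u₀ : Fˣ) : F) * h ^ p := by
      show ((u₀ : Fˣ) : F) * ((w ^ p : Fˣ) : F) = _
      rw [Units.val_pow_eq_pow_val]
      show ((u₀ : Fˣ) : F) * (algebraMap K F b * h) ^ p = _
      rw [mul_pow, ← map_pow, hb]
      ring
    rw [e]
    exact ⟨hU1, hU2⟩

end Fermat.Agent.GF.Trop

end
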