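/-
GATE-F (S40) / node GF-TROP, file 3 (helper86): **the tropical coordinates of a class sum to zero**,
and the first reduction of a representative of a class in the kernel of the tropical map has a
`p`-divisible divisor.

Abstract frame: two reduction data with the fibre formula `FF2 R1 R2 d1 d2 S1 S2` (helper48's binder,
closed on the nodal frame by helper26's `Fib.ff2`), `S1 ⊇` all places which are not nodes `P j`,
all places of `Ft1/k` of degree one.

* `dvd_ord_red1_of_mem` : for a unit `u` of both valuations with `p ∣ div u`: `p ∣ ord_{Q'} (red₁ u)`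
  at every `Q' ∈ S1`;
* `dvd_sum_node_ord1` : `p ∣ ∑_j ord_{P j} (red₁ u)`;
* the same on the second component.
-/
import Mathlib
import Fermat.Agent.GF.Trop.Approx

set_option autoImplicit false
set_option linter.unusedSectionVars false

noncomputable section

open AlgebraicCurve

namespace Fermat.Agent.GF.Trop

open Fermat.Agent.GJ.J1 Fermat.Agent.GJ.KumGroup Fermat.Agent.S24 Fermat.Agent.GK.MultiVal
open Fermat.Agent.GS.Nodal.ROfSurj2

open scoped Classical

variable {K F k Ft1 Ft2 : Type*} [Field K] [Field F] [Algebra K F] [Field k]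
  [Field Ft1] [Algebra k Ft1] [Field Ft2] [Algebra k Ft2]
variable {R1 : RedData K F k Ft1} {R2 : RedData K F k Ft2}
variable {d1 : Place k Ft1 → Set (Place K F)} {d2 : Place k Ft2 → Set (Place K F)}
variable {S1 : Set (Place k Ft1)} {S2 : Set (Place k Ft2)}

section General

variable {L E : Type*} [Field L] [Field E] [Algebra L E]

/-- the degree of a divisor all of whose places have degree one -/
theorem degree_eq_sum_of_deg_one (hdeg : ∀ v : Place L E, v.deg = 1) (D : Divisor L E) :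
    Divisor.degree D = ∑ v ∈ D.support, D v := by
  unfold Divisor.degree
  rw [Finsupp.liftAddHom_apply, Finsupp.sum]
  refine Finset.sum_congr rfl fun v _ => ?_
  simp [hdeg v]

/-- **the orders of a function at finitely many distinguished places, against the others** -/
theorem sum_nodes_add_sum_others [HasPrincipalDivisors L E] (hdeg : ∀ v : Place L E, v.deg = 1)
    {ι : Type*} [Fintype ι] {P : ι → Place L E} (hP : Function.Injective P) {y : E}
    {D : Divisor L E} (hD : ∀ v : Place L E, D v = v.ord y) (hdegD : Divisor.degree D = 0) :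
    ∑ j, (P j).ord y + ∑ v ∈ D.support.filter (fun v => ∀ j, v ≠ P j), v.ord y = 0 := by
  have h1 := degree_eq_sum_of_deg_one hdeg D
  rw [hdegD] at h1
  have h2 := Finset.sum_filter_add_sum_filter_not D.support (fun v => ∀ j, v ≠ P j) (fun v => D v)
  have h3 : ∑ v ∈ D.support.filter (fun v => ¬ ∀ j, v ≠ P j), D v = ∑ j, D (P j) := by
    have himg : D.support.filter (fun v => ¬ ∀ j, v ≠ P j) =
        (Finset.univ.filter (fun j => P j ∈ D.support)).image P := by
      ext v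
      simp only [Finset.mem_filter, Finset.mem_image, Finset.mem_univ, true_and, not_forall,
        not_not]
      constructor
      · rintro ⟨hv, j, rfl⟩
        exact ⟨j, hv, rfl⟩
      · rintro ⟨j, hj, rfl⟩
        exact ⟨hj, j, rfl⟩
    rw [himg, Finset.sum_image (fun a _ b _ hab => hP hab), Finset.sum_filter]
    refine Finset.sum_congr rfl fun j _ => ?_
    split_ifs with hj
    · rfl
    · exact (Finsupp.notMem_support_iff.mp hj).symm
  rw [h3] at h2
  have h4 : ∑ j, (P j).ord y = ∑ j, D (P j) := Finset.sum_congr rfl fun j _ => (hD (P j)).symm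
  have h5 : ∑ v ∈ D.support.filter (fun v => ∀ j, v ≠ P j), v.ord y =
      ∑ v ∈ D.support.filter (fun v => ∀ j, v ≠ P j), D v :=
    Finset.sum_congr rfl fun v _ => (hD v).symm
  rw [h4, h5]
  linarith

end General

variable [HasPrincipalDivisors K F]

/-- **`p ∣ ord_{Q'} (red₁ u)` at the places where the fibre formula holds** -/
theorem dvd_ord_red1_of_mem (hFF : FF2 R1 R2 d1 d2 S1 S2) {p : ℕ} {u : F} (hu : BothU R1 R2 u)
    (hdiv : ∀ v : Place K F, (p : ℤ) ∣ v.ord u) {Q' : Place k Ft1} (hQ' : Q' ∈ S1) :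
    (p : ℤ) ∣ Q'.ord (R1.red ⟨u, hu.1.2.1⟩) := by
  obtain ⟨Dy, hDy, -⟩ := HasPrincipalDivisors.exists_divisor (K := K) u hu.1.1
  rw [(hFF u hu.1.2.1 hu.2.2.1 hu.1.red_ne_zero hu.2.red_ne_zero Dy hDy).1 Q' hQ']
  exact Finset.dvd_sum fun v _ => hdiv v

/-- **`p ∣ ord_{Q'} (red₂ u)` at the places where the fibre formula holds** -/
theorem dvd_ord_red2_of_mem (hFF : FF2 R1 R2 d1 d2 S1 S2) {p : ℕ} {u : F} (hu : BothU R1 R2 u)
    (hdiv : ∀ v : Place K F, (p : ℤ) ∣ v.ord u) {Q' : Place k Ft2} (hQ' : Q' ∈ S2) :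
    (p : ℤ) ∣ Q'.ord (R2.red ⟨u, hu.2.2.1⟩) := by
  obtain ⟨Dy, hDy, -⟩ := HasPrincipalDivisors.exists_divisor (K := K) u hu.1.1
  rw [(hFF u hu.1.2.1 hu.2.2.1 hu.1.red_ne_zero hu.2.red_ne_zero Dy hDy).2 Q' hQ']
  exact Finset.dvd_sum fun v _ => hdiv v

variable {ι : Type*} [Fintype ι]

/-- **the node orders of the first reduction sum to a multiple of `p`** -/
theorem dvd_sum_node_ord1 [HasPrincipalDivisors k Ft1] (hFF : FF2 R1 R2 d1 d2 S1 S2)
    (hdeg1 : ∀ Q' : Place k Ft1, Q'.deg = 1) {P : ι → Place k Ft1} (hP : Function.Injective P)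
    (hS1 : ∀ Q' : Place k Ft1, (∀ j, Q' ≠ P j) → Q' ∈ S1) {p : ℕ} {u : F} (hu : BothU R1 R2 u)
    (hdiv : ∀ v : Place K F, (p : ℤ) ∣ v.ord u) :
    (p : ℤ) ∣ ∑ j, (P j).ord (R1.red ⟨u, hu.1.2.1⟩) := by
  obtain ⟨D, hD, hdegD⟩ :=
    HasPrincipalDivisors.exists_divisor (K := k) (R1.red ⟨u, hu.1.2.1⟩) hu.1.red_ne_zero
  have h := sum_nodes_add_sum_others hdeg1 hP hD hdegD
  have h2 : (p : ℤ) ∣ ∑ v ∈ D.support.filter (fun v => ∀ j, v ≠ P j),
      v.ord (R1.red ⟨u, hu.1.2.1⟩) :=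
    Finset.dvd_sum fun v hv =>
      dvd_ord_red1_of_mem hFF hu hdiv (hS1 v (Finset.mem_filter.mp hv).2)
  have h3 : ∑ j, (P j).ord (R1.red ⟨u, hu.1.2.1⟩) =
      -∑ v ∈ D.support.filter (fun v => ∀ j, v ≠ P j), v.ord (R1.red ⟨u, hu.1.2.1⟩) := by
    linarith
  rw [h3]
  exact (dvd_neg).mpr h2

/-- **the node orders of the second reduction sum to a multiple of `p`** -/
theorem dvd_sum_node_ord2 [HasPrincipalDivisors k Ft2] (hFF : FF2 R1 R2 d1 d2 S1 S2)
    (hdeg2 : ∀ Q' : Place k Ft2, Q'.deg = 1) {Q : ι → Place k Ft2} (hQ : Function.Injective Q)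
    (hS2 : ∀ Q' : Place k Ft2, (∀ j, Q' ≠ Q j) → Q' ∈ S2) {p : ℕ} {u : F} (hu : BothU R1 R2 u)
    (hdiv : ∀ v : Place K F, (p : ℤ) ∣ v.ord u) :
    (p : ℤ) ∣ ∑ j, (Q j).ord (R2.red ⟨u, hu.2.2.1⟩) := by
  obtain ⟨D, hD, hdegD⟩ :=
    HasPrincipalDivisors.exists_divisor (K := k) (R2.red ⟨u, hu.2.2.1⟩) hu.2.red_ne_zero
  have h := sum_nodes_add_sum_others hdeg2 hQ hD hdegD
  have h2 : (p : ℤ) ∣ ∑ v ∈ D.support.filter (fun v => ∀ j, v ≠ Q j),
      v.ord (R2.red ⟨u, hu.2.2.1⟩) :=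
    Finset.dvd_sum fun v hv =>
      dvd_ord_red2_of_mem hFF hu hdiv (hS2 v (Finset.mem_filter.mp hv).2)
  have h3 : ∑ j, (Q j).ord (R2.red ⟨u, hu.2.2.1⟩) =
      -∑ v ∈ D.support.filter (fun v => ∀ j, v ≠ Q j), v.ord (R2.red ⟨u, hu.2.2.1⟩) := by
    linarith
  rw [h3]
  exact (dvd_neg).mpr h2

end Fermat.Agent.GF.Trop

end
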