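/-
GATE-F (S40) / node GF-TROP, file 4 (helper86): **the tropical map on an abstract two-component
frame**: sum zero, the finite parts `Vf ≤ Vf'`, divisibility of the reduced divisor on `Vf`, and
equivariance under automorphisms of the frame.

* `sum_trop1_eq_zero`, `sum_trop2_eq_zero` : `∑_j trop x j = 0` in `ZMod p`;
* `Vf R hun p P := ker trop`, `Vf' := {x | trop x is constant}`; `Vf ≤ Vf'`;
* `exists_rep_of_mem_Vf` : a class of `Vf` has a representative `u`, unit for both valuations,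
  with `p ∣ ord_{Q'} (red₁ u)` at EVERY place `Q'` of the first component (nodes included);
* `ordRed_smul` : `ordRed (b • Pl) (σ • u) = ordRed Pl u` for `φ = (σ, b) : RedAut R`;
  `tropAt_kumEnd` : the induced equivariance of `tropAt` under `kumEnd`.
-/
import Mathlib
import Fermat.Agent.GF.Trop.SumZero
import Fermat.Agent.GH.Gal.RedAut
import Fermat.Agent.GJ.Kum.KumType

set_option autoImplicit false
set_option linter.unusedSectionVars false

noncomputable section

open AlgebraicCurve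

namespace Fermat.Agent.GF.Trop

open Fermat.Agent.GJ.J1 Fermat.Agent.GJ.KumGroup Fermat.Agent.S24 Fermat.Agent.GK.MultiVal
open Fermat.Agent.GS.Nodal.ROfSurj2 Fermat.Agent.GJ.Kum.KumType

open scoped Classical

variable {K F k Ft1 Ft2 : Type*} [Field K] [Field F] [Algebra K F] [Field k]
  [Field Ft1] [Algebra k Ft1] [Field Ft2] [Algebra k Ft2]
variable {R1 : RedData K F k Ft1} {R2 : RedData K F k Ft2}
variable {d1 : Place k Ft1 → Set (Place K F)} {d2 : Place k Ft2 → Set (Place K F)}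
variable {S1 : Set (Place k Ft1)} {S2 : Set (Place k Ft2)}
variable [HasPrincipalDivisors K F]
variable {ι : Type*} [Fintype ι]

/-- the data of the abstract frame needed for the sum formula -/
structure TropHyp (R1 : RedData K F k Ft1) (R2 : RedData K F k Ft2) (p : ℕ) : Prop where
  hc : RedCompat R1 R2
  hPS : PairSurj R1 R2
  hun1 : Unram R1
  hun2 : Unram R2
  harch : Arch R1.A
  hp : 0 < p
  hroot : ∀ a : K, ∃ b : K, b ^ p = a

variable {p : ℕ}

/-- **the tropical coordinates (first component) of a class sum to zero** -/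
theorem sum_trop1_eq_zero [HasPrincipalDivisors k Ft1] (T : TropHyp R1 R2 p)
    (hFF : FF2 R1 R2 d1 d2 S1 S2) (hdeg1 : ∀ Q' : Place k Ft1, Q'.deg = 1)
    {P : ι → Place k Ft1} (hP : Function.Injective P)
    (hS1 : ∀ Q' : Place k Ft1, (∀ j, Q' ≠ P j) → Q' ∈ S1) (x : Additive (Kum K F p)) :
    ∑ j, trop R1 T.hun1 p P x j = 0 := by
  obtain ⟨u, hux, hu⟩ := exists_bothUnit_rep T.hc T.hPS T.hun1 T.hun2 T.harch T.hp T.hroot
    (Additive.toMul x)
  have hx : x = Additive.ofMul (Kum.mk u) := by rw [hux]; rfl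
  rw [hx]
  have h1 : ∀ j, trop R1 T.hun1 p P (Additive.ofMul (Kum.mk u)) j =
      (((P j).ord (R1.red ⟨((u : Fˣ) : F), hu.1.2.1⟩) : ℤ) : ZMod p) := by
    intro j
    rw [trop_mk, ordRed_of_isU T.hun1 (P j) hu.1]
  rw [Finset.sum_congr rfl fun j _ => h1 j, ← Int.cast_sum]
  exact (ZMod.intCast_zmod_eq_zero_iff_dvd _ p).mpr
    (dvd_sum_node_ord1 hFF hdeg1 hP hS1 hu (mem_pDivUnits.mp u.2))

/-- **the tropical coordinates (second component) of a class sum to zero** -/
theorem sum_trop2_eq_zero [HasPrincipalDivisors k Ft2] (T : TropHyp R1 R2 p)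
    (hFF : FF2 R1 R2 d1 d2 S1 S2) (hdeg2 : ∀ Q' : Place k Ft2, Q'.deg = 1)
    {Q : ι → Place k Ft2} (hQ : Function.Injective Q)
    (hS2 : ∀ Q' : Place k Ft2, (∀ j, Q' ≠ Q j) → Q' ∈ S2) (x : Additive (Kum K F p)) :
    ∑ j, trop R2 T.hun2 p Q x j = 0 := by
  obtain ⟨u, hux, hu⟩ := exists_bothUnit_rep T.hc T.hPS T.hun1 T.hun2 T.harch T.hp T.hroot
    (Additive.toMul x)
  have hx : x = Additive.ofMul (Kum.mk u) := by rw [hux]; rfl
  rw [hx]
  have h1 : ∀ j, trop R2 T.hun2 p Q (Additive.ofMul (Kum.mk u)) j =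
      (((Q j).ord (R2.red ⟨((u : Fˣ) : F), hu.2.2.1⟩) : ℤ) : ZMod p) := by
    intro j
    rw [trop_mk, ordRed_of_isU T.hun2 (Q j) hu.2]
  rw [Finset.sum_congr rfl fun j _ => h1 j, ← Int.cast_sum]
  exact (ZMod.intCast_zmod_eq_zero_iff_dvd _ p).mpr
    (dvd_sum_node_ord2 hFF hdeg2 hQ hS2 hu (mem_pDivUnits.mp u.2))

/-! ### the finite parts -/

section Finite

variable {Ft : Type*} [Field Ft] [Algebra k Ft] {κ : Type*}

/-- **`V^f`**: the classes with trivial tropical coordinates -/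
def Vf (R : RedData K F k Ft) (hun : Unram R) (p : ℕ) (P : κ → Place k Ft) :
    AddSubgroup (Additive (Kum K F p)) := (trop R hun p P).ker

/-- **`V^f'`**: the classes with constant tropical coordinates -/
def Vf' (R : RedData K F k Ft) (hun : Unram R) (p : ℕ) (P : κ → Place k Ft) :
    AddSubgroup (Additive (Kum K F p)) where
  carrier := {x | ∀ i j, trop R hun p P x i = trop R hun p P x j}
  zero_mem' := fun i j => by rw [map_zero]; rfl
  add_mem' := by
    intro a b ha hb i j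
    rw [map_add, Pi.add_apply, Pi.add_apply, ha i j, hb i j]
  neg_mem' := by
    intro a ha i j
    rw [map_neg, Pi.neg_apply, Pi.neg_apply, ha i j]

variable {R : RedData K F k Ft} {hun : Unram R} {P : κ → Place k Ft}

theorem mem_Vf {x : Additive (Kum K F p)} : x ∈ Vf R hun p P ↔ ∀ j, trop R hun p P x j = 0 := by
  unfold Vf
  rw [AddMonoidHom.mem_ker]
  exact funext_iff

theorem mem_Vf' {x : Additive (Kum K F p)} :
    x ∈ Vf' R hun p P ↔ ∀ i j, trop R hun p P x i = trop R hun p P x j := Iff.rfl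

theorem Vf_le_Vf' : Vf R hun p P ≤ Vf' R hun p P := by
  intro x hx i j
  rw [mem_Vf.mp hx i, mem_Vf.mp hx j]

end Finite

/-- **a class of `V^f` has a representative, unit for both valuations, whose first reduction has a
`p`-divisible divisor** (nodes included). -/
theorem exists_rep_of_mem_Vf (T : TropHyp R1 R2 p) (hFF : FF2 R1 R2 d1 d2 S1 S2)
    {P : ι → Place k Ft1} (hS1 : ∀ Q' : Place k Ft1, (∀ j, Q' ≠ P j) → Q' ∈ S1)
    {x : Additive (Kum K F p)} (hx : x ∈ Vf R1 T.hun1 p P) :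
    ∃ (u : pDivUnits K F p) (hu : BothU R1 R2 ((u : Fˣ) : F)), Additive.ofMul (Kum.mk u) = x ∧
      ∀ Q' : Place k Ft1, (p : ℤ) ∣ Q'.ord (R1.red ⟨((u : Fˣ) : F), hu.1.2.1⟩) := by
  obtain ⟨u, hux, hu⟩ := exists_bothUnit_rep T.hc T.hPS T.hun1 T.hun2 T.harch T.hp T.hroot
    (Additive.toMul x)
  have hx' : x = Additive.ofMul (Kum.mk u) := by rw [hux]; rfl
  refine ⟨u, hu, hx'.symm, fun Q' => ?_⟩
  by_cases hnode : ∀ j, Q' ≠ P j
  · exact dvd_ord_red1_of_mem hFF hu (mem_pDivUnits.mp u.2) (hS1 Q' hnode)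
  · simp only [not_forall, not_not] at hnode
    obtain ⟨j, rfl⟩ := hnode
    have h0 := mem_Vf.mp hx j
    rw [hx', trop_mk, ordRed_of_isU T.hun1 (P j) hu.1] at h0
    exact (ZMod.intCast_zmod_eq_zero_iff_dvd _ p).mp h0

/-! ### equivariance -/

section Equivariance

variable {Ft : Type*} [Field Ft] [Algebra k Ft] {R : RedData K F k Ft} (hun : Unram R)

open Fermat.Agent.GH.Gal

/-- **`ordRed` is equivariant under automorphisms of the reduction datum** -/
theorem ordRed_smul (φ : RedAut R) (Pl : Place k Ft) {u : F} (hu : u ≠ 0) :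
    ordRed R hun (φ.b • Pl) (φ.σ • u) = ordRed R hun Pl u := by
  obtain ⟨c, hc0, hm, hmi⟩ := hun u hu
  have hcF : algebraMap K F c ≠ 0 := by simpa using hc0
  have hU : IsU R (algebraMap K F c * u) := ⟨mul_ne_zero hcF hu, hm, hmi⟩
  have hσu : φ.σ • u ≠ 0 := by
    intro h0
    apply hu
    have := congrArg (φ.σ⁻¹ • ·) h0
    simpa using this
  have e : algebraMap K F (SemilinearAut.baseAut φ.σ c) * (φ.σ • u) =
      φ.σ • (algebraMap K F c * u) := by
    rw [smul_mul', SemilinearAut.smul_algebraMap]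
  have hU' : IsU R (algebraMap K F (SemilinearAut.baseAut φ.σ c) * (φ.σ • u)) := by
    rw [e]
    refine ⟨?_, φ.mem_Rw _ hm, ?_⟩
    · intro h0
      apply hU.1
      have := congrArg (φ.σ⁻¹ • ·) h0
      simpa using this
    · rw [← smul_inv'']
      exact φ.mem_Rw _ hmi
  rw [ordRed_eq hun (φ.b • Pl) hσu hU', ordRed_eq hun Pl hu hU]
  have e2 : (⟨algebraMap K F (SemilinearAut.baseAut φ.σ c) * (φ.σ • u), hU'.2.1⟩ : R.Rw) =
      ⟨φ.σ • (algebraMap K F c * u), φ.mem_Rw _ hm⟩ := Subtype.ext e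
  rw [e2, φ.red_smul _ hm, SemilinearAut.ord_smul]

/-- **equivariance of the tropical map**: if the unit endomorphism `f` of `Fˣ` is induced by the
automorphism `φ.σ` of the frame, then `tropAt (φ.b • Pl) (f_* x) = tropAt Pl x`. -/
theorem tropAt_kumEnd (φ : RedAut R) (Pl : Place k Ft) {p : ℕ} (f : Fˣ →* Fˣ)
    (hf : ∀ u ∈ pDivUnits K F p, f u ∈ pDivUnits K F p)
    (hfσ : ∀ u : Fˣ, ((f u : Fˣ) : F) = φ.σ • (u : F)) (x : Additive (Kum K F p)) :
    tropAt R hun (φ.b • Pl) p (kumEnd f hf x) = tropAt R hun Pl p x := by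
  obtain ⟨u, rfl⟩ := exists_rep x
  rw [kumEnd_mk, tropAt_mk, tropAt_mk]
  show ((ordRed R hun (φ.b • Pl) ((f (u : Fˣ) : Fˣ) : F) : ℤ) : ZMod p) = _
  rw [hfσ, ordRed_smul hun φ Pl (u : Fˣ).ne_zero]

end Equivariance

end Fermat.Agent.GF.Trop

end
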