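/-
GATE-F (S40) / node GF-TROP, file 6 (helper86): **the reduction maps on the finite part**

  `redKum T hFF hS1 : Vf R₁ hun₁ p P →+ Additive (Kum k Ft₁ p)`,   `[u] ↦ [red₁ u]`

for ANY representative `u` which is a unit of the FIRST valuation (`redKum_mk`); GRAPH v1 (5791) R5:
"`x ∈ V^f ⟺ red₁ u_x` is a `p`-divisible unit of `Ft₁`".

* `redUnit R hu : Ftˣ` the reduction of a unit; `redUnit_mul`, `redUnit_pow`; `isU_of_pow`;
* `redUnit_mem_pDivUnits` : for `[u] ∈ Vf`, `u` a unit of `R₁`: `p ∣ div (red₁ u)`;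
* `mem_Vf_of_dvd` : the converse (a unit representative with `p ∣ ord_{P j} (red₁ u)` at the nodes);
* `redKum`, `redKum_mk` (any unit representative computes it), additive;
* `redKum_eq_zero_iff` : `redKum x = 0 ⟺` `x` has a representative which is a PRINCIPAL unit of
  `R₁` (`red₁ u = 1`).
* `redKum_smul` : equivariance under automorphisms `φ = (σ, b) : RedAut R₁` fixing the residue
  field pointwise (`b = 1`, e.g. inertia): `redKum (σ_* x) = redKum x`.
-/
import Mathlib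
import Fermat.Agent.GF.Trop.Main

set_option autoImplicit false
set_option linter.unusedSectionVars false

noncomputable section

open AlgebraicCurve

namespace Fermat.Agent.GF.Trop

open Fermat.Agent.GJ.J1 Fermat.Agent.GJ.KumGroup Fermat.Agent.S24 Fermat.Agent.GK.MultiVal
open Fermat.Agent.GS.Nodal.ROfSurj2 Fermat.Agent.GJ.Kum.KumType

open scoped Classical

section RedUnit

variable {K F k Ft : Type*} [Field K] [Field F] [Algebra K F] [Field k] [Field Ft] [Algebra k Ft]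
variable {R : RedData K F k Ft}

/-- the reduction of a unit of `R.Rw`, as a unit of `Ft` -/
def redUnit (R : RedData K F k Ft) {u : F} (hu : IsU R u) : Ftˣ :=
  Units.mk0 (R.red ⟨u, hu.2.1⟩) hu.red_ne_zero

@[simp] theorem redUnit_val {u : F} (hu : IsU R u) :
    ((redUnit R hu : Ftˣ) : Ft) = R.red ⟨u, hu.2.1⟩ := rfl

theorem redUnit_congr {u v : F} (h : u = v) (hu : IsU R u) (hv : IsU R v) :
    redUnit R hu = redUnit R hv := by
  subst h
  rfl

theorem redUnit_mul {u v : F} (hu : IsU R u) (hv : IsU R v) :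
    redUnit R (hu.mul hv) = redUnit R hu * redUnit R hv := by
  apply Units.ext
  show R.red ⟨u * v, _⟩ = R.red ⟨u, hu.2.1⟩ * R.red ⟨v, hv.2.1⟩
  rw [← map_mul]
  rfl

theorem redUnit_one : redUnit R (isU_one : IsU R (1 : F)) = 1 := by
  apply Units.ext
  show R.red ⟨1, _⟩ = 1
  exact map_one R.red

theorem redUnit_pow {u : F} (hu : IsU R u) (n : ℕ) :
    redUnit R (hu.pow n) = redUnit R hu ^ n := by
  apply Units.ext
  show R.red ⟨u ^ n, _⟩ = (R.red ⟨u, hu.2.1⟩) ^ n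
  rw [← map_pow]
  rfl

theorem redUnit_inv {u : F} (hu : IsU R u) : redUnit R hu.inv = (redUnit R hu)⁻¹ := by
  rw [eq_inv_iff_mul_eq_one, ← redUnit_mul]
  rw [redUnit_congr (inv_mul_cancel₀ hu.1) _ isU_one, redUnit_one]

/-- a root of a unit is a unit -/
theorem isU_of_pow {w : F} {n : ℕ} (hn : 0 < n) (h : IsU R (w ^ n)) : IsU R w := by
  have hw0 : w ≠ 0 := by
    rintro rfl
    rw [zero_pow hn.ne'] at h
    exact h.1 rfl
  obtain ⟨m, rfl⟩ : ∃ m, n = m + 1 := ⟨n - 1, by omega⟩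
  rcases R.Rw.mem_or_inv_mem w with hw | hw
  · refine ⟨hw0, hw, ?_⟩
    have e : w⁻¹ = w ^ m * (w ^ (m + 1))⁻¹ := by
      rw [pow_succ, mul_inv, ← mul_assoc, mul_inv_cancel₀ (pow_ne_zero m hw0), one_mul]
    rw [e]
    exact mul_mem (pow_mem hw m) h.2.2
  · refine ⟨hw0, ?_, hw⟩
    have e : w = w⁻¹ ^ m * w ^ (m + 1) := by
      rw [pow_succ, ← mul_assoc, ← mul_pow, inv_mul_cancel₀ hw0, one_pow, one_mul]
    rw [e]
    exact mul_mem (pow_mem hw m) h.2.1

end RedUnit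

variable {K F k Ft1 Ft2 : Type*} [Field K] [Field F] [Algebra K F] [Field k]
  [Field Ft1] [Algebra k Ft1] [Field Ft2] [Algebra k Ft2]
variable {R1 : RedData K F k Ft1} {R2 : RedData K F k Ft2}
variable {d1 : Place k Ft1 → Set (Place K F)} {d2 : Place k Ft2 → Set (Place K F)}
variable {S1 : Set (Place k Ft1)} {S2 : Set (Place k Ft2)}
variable [HasPrincipalDivisors K F]
variable {ι : Type*} [Fintype ι] {p : ℕ}

/-- two unit representatives of one Kummer class: the reductions differ by a `p`-th power -/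
theorem exists_redUnit_eq_mul_pow {R : RedData K F k Ft1} (hp : 0 < p)
    {u v : pDivUnits K F p} (hu : IsU R (((u : Fˣ) : F))) (hv : IsU R (((v : Fˣ) : F)))
    (huv : Kum.mk u = Kum.mk v) :
    ∃ w : Ft1ˣ, redUnit R hv = redUnit R hu * w ^ p := by
  obtain ⟨w, hw⟩ := Kum.mk_eq_mk_iff.mp huv
  have hwF : ((v : Fˣ) : F) = ((u : Fˣ) : F) * ((w : Fˣ) : F) ^ p := by
    rw [hw]
    simp
  have hwp : IsU R (((w : Fˣ) : F) ^ p) := by
    have e : ((w : Fˣ) : F) ^ p = ((u : Fˣ) : F)⁻¹ * ((v : Fˣ) : F) := by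
      rw [hwF, ← mul_assoc, inv_mul_cancel₀ hu.1, one_mul]
    rw [e]
    exact hu.inv.mul hv
  have hwU : IsU R ((w : Fˣ) : F) := isU_of_pow hp hwp
  refine ⟨redUnit R hwU, ?_⟩
  rw [← redUnit_pow, ← redUnit_mul]
  exact redUnit_congr hwF _ _

variable (T : TropHyp R1 R2 p) (hFF : FF2 R1 R2 d1 d2 S1 S2) {P : ι → Place k Ft1}
  (hS1 : ∀ Q' : Place k Ft1, (∀ j, Q' ≠ P j) → Q' ∈ S1)

include hFF hS1 in
/-- **for `[u] ∈ Vf` and `u` a unit of the first valuation, `red₁ u` is a `p`-divisible unit** -/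
theorem redUnit_mem_pDivUnits {u : pDivUnits K F p} (hu : IsU R1 (((u : Fˣ) : F)))
    (hx : Additive.ofMul (Kum.mk u) ∈ Vf R1 T.hun1 p P) :
    redUnit R1 hu ∈ pDivUnits k Ft1 p := by
  obtain ⟨u0, hu0, hcls, hdiv⟩ := exists_rep_of_mem_Vf T hFF hS1 hx
  have hcls' : Kum.mk u0 = Kum.mk u := hcls
  obtain ⟨w, hw⟩ := exists_redUnit_eq_mul_pow T.hp hu0.1 hu hcls'
  rw [hw]
  refine mul_mem (fun Q' => hdiv Q') (pow_mem_pDivUnits k Ft1 p w)

/-- **converse**: a unit representative whose reduction has `p`-divisible orders at the nodes -/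
theorem mem_Vf_of_dvd (hun : Unram R1) {u : pDivUnits K F p} (hu : IsU R1 (((u : Fˣ) : F)))
    (hdiv : ∀ j, (p : ℤ) ∣ (P j).ord (R1.red ⟨((u : Fˣ) : F), hu.2.1⟩)) :
    Additive.ofMul (Kum.mk u) ∈ Vf R1 hun p P := by
  rw [mem_Vf]
  intro j
  rw [trop_mk, ordRed_of_isU hun (P j) hu]
  exact (ZMod.intCast_zmod_eq_zero_iff_dvd _ p).mpr (hdiv j)

/-- the reduction of a class of `Vf`, computed on a chosen both-unit representative -/
def redKumFun (x : Vf R1 T.hun1 p P) : Additive (Kum k Ft1 p) :=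
  let e := exists_bothUnit_rep T.hc T.hPS T.hun1 T.hun2 T.harch T.hp T.hroot (Additive.toMul x.1)
  Additive.ofMul (Kum.mk ⟨redUnit R1 e.choose_spec.2.1,
    redUnit_mem_pDivUnits T hFF hS1 e.choose_spec.2.1 (by
      have h1 : Additive.ofMul (Kum.mk e.choose) = x.1 := by rw [e.choose_spec.1]; rfl
      rw [h1]
      exact x.2)⟩)

/-- **`redKumFun` is computed by ANY representative which is a unit of the first valuation** -/
theorem redKumFun_mk {u : pDivUnits K F p} (hu : IsU R1 (((u : Fˣ) : F)))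
    (hx : Additive.ofMul (Kum.mk u) ∈ Vf R1 T.hun1 p P) :
    redKumFun T hFF hS1 ⟨Additive.ofMul (Kum.mk u), hx⟩ =
      Additive.ofMul (Kum.mk ⟨redUnit R1 hu, redUnit_mem_pDivUnits T hFF hS1 hu hx⟩) := by
  unfold redKumFun
  set e := exists_bothUnit_rep T.hc T.hPS T.hun1 T.hun2 T.harch T.hp T.hroot
    (Additive.toMul (Additive.ofMul (Kum.mk u))) with he
  have h1 : Kum.mk e.choose = Kum.mk u := e.choose_spec.1
  obtain ⟨w, hw⟩ := exists_redUnit_eq_mul_pow T.hp e.choose_spec.2.1 hu h1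
  show Additive.ofMul _ = Additive.ofMul _
  congr 1
  rw [Kum.mk_eq_mk_iff]
  exact ⟨w, hw⟩

/-- **the reduction map on the finite part**, `[u] ↦ [red₁ u]` -/
def redKum : Vf R1 T.hun1 p P →+ Additive (Kum k Ft1 p) :=
  AddMonoidHom.mk' (redKumFun T hFF hS1) (by
    intro x y
    obtain ⟨u, hux, hu⟩ := exists_bothUnit_rep T.hc T.hPS T.hun1 T.hun2 T.harch T.hp T.hroot
      (Additive.toMul x.1)
    obtain ⟨v, hvy, hv⟩ := exists_bothUnit_rep T.hc T.hPS T.hun1 T.hun2 T.harch T.hp T.hroot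
      (Additive.toMul y.1)
    have hx1 : x.1 = Additive.ofMul (Kum.mk u) := by rw [hux]; rfl
    have hy1 : y.1 = Additive.ofMul (Kum.mk v) := by rw [hvy]; rfl
    have hxm : Additive.ofMul (Kum.mk u) ∈ Vf R1 T.hun1 p P := hx1 ▸ x.2
    have hym : Additive.ofMul (Kum.mk v) ∈ Vf R1 T.hun1 p P := hy1 ▸ y.2
    have hx : x = ⟨Additive.ofMul (Kum.mk u), hxm⟩ := Subtype.ext hx1
    have hy : y = ⟨Additive.ofMul (Kum.mk v), hym⟩ := Subtype.ext hy1
    have hmul : Additive.ofMul (Kum.mk (u * v)) =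
        Additive.ofMul (Kum.mk u) + Additive.ofMul (Kum.mk v) := by
      rw [map_mul]; rfl
    have hxym : Additive.ofMul (Kum.mk (u * v)) ∈ Vf R1 T.hun1 p P := by
      rw [hmul]
      exact add_mem hxm hym
    have hxy : x + y = ⟨Additive.ofMul (Kum.mk (u * v)), hxym⟩ := by
      apply Subtype.ext
      show x.1 + y.1 = Additive.ofMul (Kum.mk (u * v))
      rw [hmul, hx1, hy1]
    have huv : IsU R1 ((((u * v : pDivUnits K F p) : Fˣ) : F)) := hu.1.mul hv.1
    rw [hxy, redKumFun_mk T hFF hS1 huv hxym, hx, hy, redKumFun_mk T hFF hS1 hu.1 hxm,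
      redKumFun_mk T hFF hS1 hv.1 hym]
    have key : Kum.mk (⟨redUnit R1 huv, redUnit_mem_pDivUnits T hFF hS1 huv hxym⟩ :
        pDivUnits k Ft1 p) =
        Kum.mk ⟨redUnit R1 hu.1, redUnit_mem_pDivUnits T hFF hS1 hu.1 hxm⟩ *
          Kum.mk ⟨redUnit R1 hv.1, redUnit_mem_pDivUnits T hFF hS1 hv.1 hym⟩ := by
      rw [← map_mul]
      congr 1
      apply Subtype.ext
      exact redUnit_mul hu.1 hv.1
    exact congrArg Additive.ofMul key)

/-- **`redKum` is computed by ANY representative which is a unit of the first valuation** -/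
theorem redKum_mk {u : pDivUnits K F p} (hu : IsU R1 (((u : Fˣ) : F)))
    (hx : Additive.ofMul (Kum.mk u) ∈ Vf R1 T.hun1 p P) :
    redKum T hFF hS1 ⟨Additive.ofMul (Kum.mk u), hx⟩ =
      Additive.ofMul (Kum.mk ⟨redUnit R1 hu, redUnit_mem_pDivUnits T hFF hS1 hu hx⟩) :=
  redKumFun_mk T hFF hS1 hu hx

/-- **the kernel of the reduction map**: the classes with a representative which is a principal
unit of the first valuation. -/
theorem redKum_eq_zero_iff (x : Vf R1 T.hun1 p P) :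
    redKum T hFF hS1 x = 0 ↔
      ∃ (u : pDivUnits K F p) (hu : ((u : Fˣ) : F) ∈ R1.Rw),
        Additive.ofMul (Kum.mk u) = x.1 ∧ R1.red ⟨((u : Fˣ) : F), hu⟩ = 1 := by
  constructor
  · intro h0
    obtain ⟨u, hux, hu⟩ := exists_bothUnit_rep T.hc T.hPS T.hun1 T.hun2 T.harch T.hp T.hroot
      (Additive.toMul x.1)
    have hx1 : x.1 = Additive.ofMul (Kum.mk u) := by rw [hux]; rfl
    have hxm : Additive.ofMul (Kum.mk u) ∈ Vf R1 T.hun1 p P := hx1 ▸ x.2
    have hx : x = ⟨Additive.ofMul (Kum.mk u), hxm⟩ := Subtype.ext hx1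
    rw [hx, redKum_mk T hFF hS1 hu.1 hxm] at h0
    have h1 : Kum.mk (⟨redUnit R1 hu.1, redUnit_mem_pDivUnits T hFF hS1 hu.1 hxm⟩ :
        pDivUnits k Ft1 p) = Kum.mk 1 := by
      rw [map_one]
      exact h0
    obtain ⟨w, hw⟩ := Kum.mk_eq_mk_iff.mp h1.symm
    -- `redUnit u = w ^ p`; lift `w`
    have hw' : redUnit R1 hu.1 = w ^ p := by
      have hw2 : redUnit R1 hu.1 = 1 * w ^ p := hw
      rw [hw2, one_mul]
    obtain ⟨wt, hwt⟩ := R1.red_surjective ((w : Ft1ˣ) : Ft1)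
    have hwtU : IsU R1 (wt : F) := isU_of_red_ne_zero wt.2 (by
      show R1.red ⟨(wt : F), wt.2⟩ ≠ 0
      rw [show (⟨(wt : F), wt.2⟩ : R1.Rw) = wt from rfl, hwt]
      exact w.ne_zero)
    have hredwt : redUnit R1 hwtU = w := Units.ext hwt
    let wu : Fˣ := Units.mk0 (wt : F) hwtU.1
    have hmem : (wu⁻¹) ^ p ∈ pDivUnits K F p := pow_mem_pDivUnits K F p _
    let u' : pDivUnits K F p := u * ⟨(wu⁻¹) ^ p, hmem⟩
    have hu'F : ((u' : Fˣ) : F) = ((u : Fˣ) : F) * ((wt : F)⁻¹) ^ p := by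
      show ((u : Fˣ) : F) * (((wu⁻¹) ^ p : Fˣ) : F) = _
      rw [Units.val_pow_eq_pow_val, Units.val_inv_eq_inv_val]
      rfl
    have hu'U : IsU R1 (((u : Fˣ) : F) * ((wt : F)⁻¹) ^ p) := hu.1.mul (hwtU.inv.pow p)
    refine ⟨u', by rw [hu'F]; exact hu'U.2.1, ?_, ?_⟩
    · rw [hx1]
      show Additive.ofMul _ = Additive.ofMul _
      congr 1
      rw [eq_comm, Kum.mk_eq_mk_iff]
      exact ⟨wu⁻¹, rfl⟩
    · have e1 : redUnit R1 hu'U = 1 := by
        rw [show redUnit R1 hu'U = redUnit R1 (hu.1.mul (hwtU.inv.pow p)) from rfl,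
          redUnit_mul hu.1 (hwtU.inv.pow p), redUnit_pow hwtU.inv p, redUnit_inv hwtU, hredwt, hw',
          inv_pow, mul_inv_cancel]
      have e2 := congrArg (fun z : Ft1ˣ => (z : Ft1)) e1
      simp only [redUnit_val, Units.val_one] at e2
      rw [← e2]
      congr 2
  · rintro ⟨u, huR, hux, hred⟩
    have hU : IsU R1 (((u : Fˣ) : F)) := isU_of_red_ne_zero huR (by rw [hred]; exact one_ne_zero)
    have hxm : Additive.ofMul (Kum.mk u) ∈ Vf R1 T.hun1 p P := hux ▸ x.2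
    have hx : x = ⟨Additive.ofMul (Kum.mk u), hxm⟩ := Subtype.ext hux.symm
    rw [hx, redKum_mk T hFF hS1 hU hxm]
    have e1 : redUnit R1 hU = 1 := Units.ext hred
    show Additive.ofMul _ = Additive.ofMul 1
    congr 1
    rw [← map_one (Kum.mk : pDivUnits k Ft1 p →* Kum k Ft1 p)]
    congr 1
    exact Subtype.ext e1

end Fermat.Agent.GF.Trop

end
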