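/-
GATE-F (S40) / node GF-TROP, file 5 (helper86): **the tropical map on the modular nodal frame**
of `X₀(N)`, `q ∥ N`, `A | q` (`q = p` in GATE-F) — instance of `GF/Trop/Main.lean` on
`R₁ = redDataBar N A`, `R₂ = redData2 N A h`, nodes `P j`, `Q j` of ANY
`H : NodalHyp (redCompatFN N A h) P Q C C₁ C₂ g c n₀` (`GS/Nodal/Inst/Level.exists_nodalHyp_of_exactDvd`).

* `tropHyp_FN` : the frame hypotheses (`PairSurj`, `Unram`, `harch`, `q`-th roots);
* `trop1FN`, `trop2FN : Additive (Kum Kbar (FN N) q) →+ (ι → ZMod q)` :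
  `m_s([u]) = ord_{P s} (red₁ (c u)) mod q`, `n_s([u]) = ord_{Q s} (red₂ (c' u)) mod q`;
* `sum_trop1FN`, `sum_trop2FN` : `∑_s m_s = 0`, `∑_s n_s = 0`;
* `trop1FN_gal`, `trop2FN_gal` : invariance under the inertia group of `A`;
* `kerRed_le_Vf1`, `kerRed₂_le_Vf2` : the kernels of the two reductions are in the finite parts;
* `exists_rep_of_mem_Vf1` : a class with `m_s = 0 ∀ s` has a representative `u`, unit for both
  valuations, with `q ∣ div (red₁ u)`.
-/
import Fermat.Agent.GF.Trop.Main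
import Fermat.Agent.GS.Nodal.Inst.Good
import Fermat.Agent.GS.Fib.FF2
import Fermat.Agent.GS.F.KerBridge
import Fermat.Agent.GS.Gal.PairAct
import Fermat.Agent.GH.Inst.Arch
import Fermat.Agent.GK.UqKroneckerU

set_option autoImplicit false
set_option linter.unusedSectionVars false
set_option linter.style.haveILetI false

noncomputable section

namespace Fermat.Agent.GF.Trop

open AlgebraicCurve IntermediateField Module IsLocalRing ModularCurve
open Fermat.Agent.S24 Fermat.Agent.S24_helper62 Fermat.Agent.RRh45 Fermat.Agent.RR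
open Fermat.Agent.GJ.J1 Fermat.Agent.GJ.J1.Val
open Fermat.Agent.GJ.KumGroup Fermat.Agent.GJ.Kum.KumType
open Fermat.Agent.GK.AL Fermat.Agent.GK.MultiVal Fermat.Agent.GK.BallTwo
open Fermat.Agent.GK.NodalGraded
open Fermat.Agent.GS.Nodal.LSR2 Fermat.Agent.GS.Nodal.Inst
open Fermat.Agent.GS.Nodal.ROfSurj2

variable {q : ℕ} (N : ℕ) [NeZero N] [NeZero q] (A : ValuationSubring Kbar) (h : ExactDvd q N)

attribute [local instance] finiteResidues_FN hasPrincipalDivisors_FN nonempty_place_FN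
  isAlgClosed_res finiteResidues_Fres hasPrincipalDivisors_Fres nonempty_place_Fres

/-- the frame hypotheses of the tropical map on the modular nodal frame -/
theorem tropHyp_FN (hA : A.LiesOverPrime q) :
    TropHyp (redDataBar N A) (redData2 N A h) q where
  hc := redCompatFN N A h
  hPS := pairSurj_FN N A h hA
  hun1 := Fermat.Agent.GS.F.unram_redDataBar N A
  hun2 := Fermat.Agent.GS.F.unram_redData2 N A h
  harch := Fermat.Agent.GH.Inst.harch A h.prime hA
  hp := h.prime.pos
  hroot := fun a => IsAlgClosed.exists_pow_nat_eq a h.prime.pos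

section Main

variable {ι : Type} [Fintype ι] (P Q : ι → Place (ResidueField A) (FresBar N A))

/-- **the tropical map, first component**: `m_s([u]) = ord_{P s} (red₁ (c u)) mod q`. -/
def trop1FN : Additive (Kum Kbar (FN N) q) →+ (ι → ZMod q) :=
  trop (redDataBar N A) (Fermat.Agent.GS.F.unram_redDataBar N A) q P

/-- **the tropical map, second component**: `n_s([u]) = ord_{Q s} (red₂ (c u)) mod q`. -/
def trop2FN : Additive (Kum Kbar (FN N) q) →+ (ι → ZMod q) :=
  trop (redData2 N A h) (Fermat.Agent.GS.F.unram_redData2 N A h) q Q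

variable {P Q}
variable {C : Divisor Kbar (FN N)} {C₁ C₂ : Divisor (ResidueField A) (FresBar N A)}
variable {g c : ℤ} {n₀ : ℕ}
variable (H : NodalHyp (redCompatFN N A h) P Q C C₁ C₂ g c n₀)
variable (hA : A.LiesOverPrime q)

include H hA in
/-- **`∑_s m_s(x) = 0`** -/
theorem sum_trop1FN (hP : Function.Injective P) (x : Additive (Kum Kbar (FN N) q)) :
    ∑ j, trop1FN N A P x j = 0 :=
  sum_trop1_eq_zero (tropHyp_FN N A h hA) (Fermat.Agent.GS.Fib.ff2 H) H.degFt1 hP
    (fun _ hQ' => hQ') x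

include H hA in
/-- **`∑_s n_s(x) = 0`** -/
theorem sum_trop2FN (hQ : Function.Injective Q) (x : Additive (Kum Kbar (FN N) q)) :
    ∑ j, trop2FN N A h Q x j = 0 :=
  sum_trop2_eq_zero (tropHyp_FN N A h hA) (Fermat.Agent.GS.Fib.ff2 H) H.degFt2 hQ
    (fun _ hQ' => hQ') x

include H hA in
/-- **a class with `m_s = 0` for all `s` has a representative `u`, unit for both valuations, with
`q ∣ div (red₁ u)`** (at every place of the first component, nodes included). -/
theorem exists_rep_of_mem_Vf1 {x : Additive (Kum Kbar (FN N) q)}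
    (hx : ∀ j, trop1FN N A P x j = 0) :
    ∃ (u : pDivUnits Kbar (FN N) q)
      (hu : BothU (redDataBar N A) (redData2 N A h) ((u : (FN N)ˣ) : FN N)),
      Additive.ofMul (Kum.mk u) = x ∧
      ∀ Q' : Place (ResidueField A) (FresBar N A),
        (q : ℤ) ∣ Q'.ord ((redDataBar N A).red ⟨((u : (FN N)ˣ) : FN N), hu.1.2.1⟩) :=
  exists_rep_of_mem_Vf (tropHyp_FN N A h hA) (Fermat.Agent.GS.Fib.ff2 H) (fun _ hQ' => hQ')
    (mem_Vf.mpr hx)

/-! ### invariance under inertia -/

omit [NeZero q] in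
/-- **`m_s` is invariant under the inertia group of `A`** -/
theorem trop1FN_gal {τ : Kbar ≃ₐ[ℚ] Kbar} (hτ : τ ∈ A.inertiaSubgroupIn ℚ)
    (x : Additive (Kum Kbar (FN N) q)) :
    trop1FN N A P (gal N q τ x) = trop1FN N A P x := by
  have hτd := Fermat.Agent.S05.mem_decompositionSubgroup_of_mem_inertiaSubgroupIn hτ
  funext j
  have hb : (Fermat.Agent.GS.Gal.PairAct.decompRedAut1 N A τ hτd).b = 1 :=
    Fermat.Agent.GH.Gal.fresAut_of_inertia A (modularFunctionFieldFull N) (hasGaussFrac_bar N A) hτ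
  have key := tropAt_kumEnd (Fermat.Agent.GS.F.unram_redDataBar N A)
    (Fermat.Agent.GS.Gal.PairAct.decompRedAut1 N A τ hτd) (P j) (p := q) (galUnits N τ)
    (galUnits_mem N q τ) (fun u => rfl) x
  rw [hb, one_smul] at key
  exact key

omit [NeZero q] in
/-- **`n_s` is invariant under the inertia group of `A`** -/
theorem trop2FN_gal {τ : Kbar ≃ₐ[ℚ] Kbar} (hτ : τ ∈ A.inertiaSubgroupIn ℚ)
    (x : Additive (Kum Kbar (FN N) q)) :
    trop2FN N A h Q (gal N q τ x) = trop2FN N A h Q x := by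
  have hτd := Fermat.Agent.S05.mem_decompositionSubgroup_of_mem_inertiaSubgroupIn hτ
  funext j
  have hb : (Fermat.Agent.GS.Gal.PairAct.decompRedAut2 N A h τ hτd).b = 1 :=
    Fermat.Agent.GS.Gal.PairAct.decompRedAut2_b_of_inertia N A h hτ
  have key := tropAt_kumEnd (Fermat.Agent.GS.F.unram_redData2 N A h)
    (Fermat.Agent.GS.Gal.PairAct.decompRedAut2 N A h τ hτd) (Q j) (p := q) (galUnits N τ)
    (galUnits_mem N q τ) (fun u => rfl) x
  rw [hb, one_smul] at key
  exact key

/-! ### the kernels of the two reductions lie in the finite parts -/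

open Fermat.Agent.GK.UqKronecker in
omit [NeZero q] in
/-- a constant times a principal unit of the first Gauss valuation has trivial node orders -/
theorem ordRed1_eq_zero_of_isCPrin {u : FN N} (hu : u ≠ 0)
    (hcp : IsCPrin (hasGaussFrac_bar N A) u) (Pl : Place (ResidueField A) (FresBar N A)) :
    ordRed (redDataBar N A) (Fermat.Agent.GS.F.unram_redDataBar N A) Pl u = 0 := by
  obtain ⟨c, hc0, hm, hred⟩ := hcp
  have hred' : (redDataBar N A).red ⟨u / algebraMap Kbar (FN N) c, hm⟩ = 1 :=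
    Subtype.ext hred
  have e : algebraMap Kbar (FN N) c⁻¹ * u = u / algebraMap Kbar (FN N) c := by
    rw [map_inv₀, div_eq_inv_mul]
  have hU : IsU (redDataBar N A) (algebraMap Kbar (FN N) c⁻¹ * u) := by
    rw [e]
    exact isU_of_red_ne_zero hm (by rw [hred']; exact one_ne_zero)
  rw [ordRed_eq _ Pl hu hU]
  have e2 : (⟨algebraMap Kbar (FN N) c⁻¹ * u, hU.2.1⟩ : (redDataBar N A).Rw) =
      ⟨u / algebraMap Kbar (FN N) c, hm⟩ := Subtype.ext e
  rw [e2, hred', Place.ord_one]

open Fermat.Agent.GK.UqKronecker in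
omit [NeZero q] in
/-- **`ker r₁ ≤ V^f` (first component)** -/
theorem trop1FN_eq_zero_of_mem_kerRed {x : Additive (Kum Kbar (FN N) q)}
    (hx : x ∈ kerRed N A q) : trop1FN N A P x = 0 := by
  obtain ⟨u, hu, rfl⟩ := mem_kerRed.mp hx
  funext j
  show trop (redDataBar N A) _ q P (Additive.ofMul (Kum.mk u)) j = 0
  rw [trop_mk, ordRed1_eq_zero_of_isCPrin N A (u : (FN N)ˣ).ne_zero hu, Int.cast_zero]

open Fermat.Agent.GK.UqKronecker in
omit [NeZero q] in
/-- `W_q u` a constant times a principal unit of the first Gauss valuation: trivial node orders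
for the second valuation -/
theorem ordRed2_eq_zero_of_isCPrin {u : FN N} (hu : u ≠ 0)
    (hcp : IsCPrin (hasGaussFrac_bar N A) ((wAut h : FN N ≃ₐ[Kbar] FN N) u))
    (Pl : Place (ResidueField A) (FresBar N A)) :
    ordRed (redData2 N A h) (Fermat.Agent.GS.F.unram_redData2 N A h) Pl u = 0 := by
  obtain ⟨c, hc0, hm, hred⟩ := hcp
  have ew : (wAut h : FN N ≃ₐ[Kbar] FN N) (u / algebraMap Kbar (FN N) c) =
      (wAut h : FN N ≃ₐ[Kbar] FN N) u / algebraMap Kbar (FN N) c := by
    rw [map_div₀, AlgEquiv.commutes]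
  have hm2 : u / algebraMap Kbar (FN N) c ∈ (redData2 N A h).Rw := by
    rw [mem_Rw2_iff, ew]
    exact hm
  have hred' : (redData2 N A h).red ⟨u / algebraMap Kbar (FN N) c, hm2⟩ = 1 := by
    rw [red2_eq]
    have e3 : (⟨wAut h (u / algebraMap Kbar (FN N) c), hm2⟩ : (redDataBar N A).Rw) =
        ⟨(wAut h : FN N ≃ₐ[Kbar] FN N) u / algebraMap Kbar (FN N) c, hm⟩ := Subtype.ext ew
    rw [e3]
    exact Subtype.ext hred
  have e : algebraMap Kbar (FN N) c⁻¹ * u = u / algebraMap Kbar (FN N) c := by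
    rw [map_inv₀, div_eq_inv_mul]
  have hU : IsU (redData2 N A h) (algebraMap Kbar (FN N) c⁻¹ * u) := by
    rw [e]
    exact isU_of_red_ne_zero hm2 (by rw [hred']; exact one_ne_zero)
  rw [ordRed_eq _ Pl hu hU]
  have e2 : (⟨algebraMap Kbar (FN N) c⁻¹ * u, hU.2.1⟩ : (redData2 N A h).Rw) =
      ⟨u / algebraMap Kbar (FN N) c, hm2⟩ := Subtype.ext e
  rw [e2, hred', Place.ord_one]

open Fermat.Agent.GK.UqKronecker in
omit [NeZero q] in
/-- **`ker r₂ ≤ V^f` (second component)** -/
theorem trop2FN_eq_zero_of_mem_kerRed₂ {x : Additive (Kum Kbar (FN N) q)}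
    (hx : x ∈ kerRed₂ h A q) : trop2FN N A h Q x = 0 := by
  obtain ⟨u, hu, rfl⟩ := mem_kerRedW.mp hx
  funext j
  show trop (redData2 N A h) _ q Q (Additive.ofMul (Kum.mk u)) j = 0
  rw [trop_mk, ordRed2_eq_zero_of_isCPrin N A h (u : (FN N)ˣ).ne_zero hu, Int.cast_zero]

end Main

end Fermat.Agent.GF.Trop

end
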