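/-
GATE-F (S40) / node GF-TROP, file 7 (helper86): **symmetry of the frame and equivariance of the
reduction maps**.

* `TropHyp.symm`, `ff2_symm` : the frame with the two components exchanged (so that
  `redKum T.symm (ff2_symm hFF) hS2 : Vf R₂ hun₂ p Q →+ Additive (Kum k Ft₂ p)` is the SECOND
  reduction map);
* `kumEnd_mem_Vf` : `Vf` is stable under an automorphism of the frame acting trivially on the
  special fibre (`φ.b = 1`, e.g. inertia);
* `redKum_kumEnd` : `redKum (σ_* x) = redKum x` for such an automorphism.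
-/
import Mathlib
import Fermat.Agent.GF.Trop.RedKum

set_option autoImplicit false
set_option linter.unusedSectionVars false

noncomputable section

open AlgebraicCurve

namespace Fermat.Agent.GF.Trop

open Fermat.Agent.GJ.J1 Fermat.Agent.GJ.KumGroup Fermat.Agent.S24 Fermat.Agent.GK.MultiVal
open Fermat.Agent.GS.Nodal.ROfSurj2 Fermat.Agent.GJ.Kum.KumType Fermat.Agent.GH.Gal

open scoped Classical

variable {K F k Ft1 Ft2 : Type*} [Field K] [Field F] [Algebra K F] [Field k]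
  [Field Ft1] [Algebra k Ft1] [Field Ft2] [Algebra k Ft2]
variable {R1 : RedData K F k Ft1} {R2 : RedData K F k Ft2}
variable {d1 : Place k Ft1 → Set (Place K F)} {d2 : Place k Ft2 → Set (Place K F)}
variable {S1 : Set (Place k Ft1)} {S2 : Set (Place k Ft2)}
variable {ι : Type*} [Fintype ι] {p : ℕ}

/-- the compatibility of two reduction data is symmetric -/
theorem redCompat_symm (hc : RedCompat R1 R2) : RedCompat R2 R1 :=
  ⟨hc.A_eq.symm, fun a h1 h2 => (hc.res_eq a h2 h1).symm⟩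

/-- `PairSurj` is symmetric -/
theorem pairSurj_symm (hPS : PairSurj R1 R2) : PairSurj R2 R1 := by
  intro z
  obtain ⟨x, h1, h2, e1, e2⟩ := hPS (z.2, z.1)
  exact ⟨x, h2, h1, e2, e1⟩

/-- `FF2` is symmetric -/
theorem ff2_symm (hFF : FF2 R1 R2 d1 d2 S1 S2) : FF2 R2 R1 d2 d1 S2 S1 := by
  intro y h2 h1 hr2 hr1 Dy hDy
  obtain ⟨a, b⟩ := hFF y h1 h2 hr1 hr2 Dy hDy
  exact ⟨b, a⟩

/-- **the frame with the two components exchanged** -/
theorem TropHyp.symm (T : TropHyp R1 R2 p) : TropHyp R2 R1 p where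
  hc := redCompat_symm T.hc
  hPS := pairSurj_symm T.hPS
  hun1 := T.hun2
  hun2 := T.hun1
  harch := by
    have := T.harch
    rwa [T.hc.A_eq] at this
  hp := T.hp
  hroot := T.hroot

section Equivariance

variable [HasPrincipalDivisors K F]
variable (T : TropHyp R1 R2 p) (hFF : FF2 R1 R2 d1 d2 S1 S2) {P : ι → Place k Ft1}
  (hS1 : ∀ Q' : Place k Ft1, (∀ j, Q' ≠ P j) → Q' ∈ S1)

/-- **`Vf` is stable under an automorphism of the frame acting trivially on the special fibre** -/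
theorem kumEnd_mem_Vf (hun : Unram R1) (φ : RedAut R1) (hb : φ.b = 1) (f : Fˣ →* Fˣ)
    (hf : ∀ u ∈ pDivUnits K F p, f u ∈ pDivUnits K F p)
    (hfσ : ∀ u : Fˣ, ((f u : Fˣ) : F) = φ.σ • (u : F)) {x : Additive (Kum K F p)}
    (hx : x ∈ Vf R1 hun p P) : kumEnd f hf x ∈ Vf R1 hun p P := by
  rw [mem_Vf] at hx ⊢
  intro j
  have key := tropAt_kumEnd hun φ (P j) f hf hfσ x
  rw [hb, one_smul] at key
  rw [trop_apply, key, ← trop_apply]
  exact hx j

/-- a unit stays a unit under an automorphism of the frame -/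
theorem isU_smul (φ : RedAut R1) {u : F} (hu : IsU R1 u) : IsU R1 (φ.σ • u) := by
  refine ⟨?_, φ.mem_Rw _ hu.2.1, ?_⟩
  · intro h0
    apply hu.1
    have := congrArg (φ.σ⁻¹ • ·) h0
    simpa using this
  · rw [← smul_inv'']
    exact φ.mem_Rw _ hu.2.2

/-- **the reduction map is invariant under an automorphism of the frame acting trivially on the
special fibre**: `redKum (σ_* x) = redKum x`. -/
theorem redKum_kumEnd (φ : RedAut R1) (hb : φ.b = 1) (f : Fˣ →* Fˣ)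
    (hf : ∀ u ∈ pDivUnits K F p, f u ∈ pDivUnits K F p)
    (hfσ : ∀ u : Fˣ, ((f u : Fˣ) : F) = φ.σ • (u : F)) (x : Vf R1 T.hun1 p P) :
    redKum T hFF hS1 ⟨kumEnd f hf x.1, kumEnd_mem_Vf T.hun1 φ hb f hf hfσ x.2⟩ =
      redKum T hFF hS1 x := by
  obtain ⟨u, hux, hu⟩ := exists_bothUnit_rep T.hc T.hPS T.hun1 T.hun2 T.harch T.hp T.hroot
    (Additive.toMul x.1)
  have hx1 : x.1 = Additive.ofMul (Kum.mk u) := by rw [hux]; rfl
  have hxm : Additive.ofMul (Kum.mk u) ∈ Vf R1 T.hun1 p P := hx1 ▸ x.2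
  have hx : x = ⟨Additive.ofMul (Kum.mk u), hxm⟩ := Subtype.ext hx1
  have hfu : IsU R1 ((((⟨f u, hf u u.2⟩ : pDivUnits K F p) : Fˣ) : F)) := by
    show IsU R1 ((f (u : Fˣ) : Fˣ) : F)
    rw [hfσ]
    exact isU_smul φ hu.1
  have hfm : Additive.ofMul (Kum.mk (⟨f u, hf u u.2⟩ : pDivUnits K F p)) ∈ Vf R1 T.hun1 p P := by
    rw [← kumEnd_mk]
    exact kumEnd_mem_Vf T.hun1 φ hb f hf hfσ hxm
  have e1 : (⟨kumEnd f hf x.1, kumEnd_mem_Vf T.hun1 φ hb f hf hfσ x.2⟩ : Vf R1 T.hun1 p P) =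
      ⟨Additive.ofMul (Kum.mk (⟨f u, hf u u.2⟩ : pDivUnits K F p)), hfm⟩ := by
    apply Subtype.ext
    show kumEnd f hf x.1 = _
    rw [hx1, kumEnd_mk]
  rw [e1, redKum_mk T hFF hS1 hfu hfm, hx, redKum_mk T hFF hS1 hu.1 hxm]
  congr 3
  apply Units.ext
  show R1.red ⟨((f (u : Fˣ) : Fˣ) : F), _⟩ = R1.red ⟨((u : Fˣ) : F), _⟩
  have e2 : (⟨((f (u : Fˣ) : Fˣ) : F), hfu.2.1⟩ : R1.Rw) =
      ⟨φ.σ • ((u : Fˣ) : F), φ.mem_Rw _ hu.1.2.1⟩ := Subtype.ext (hfσ _)
  rw [e2, φ.red_smul _ hu.1.2.1, hb, one_smul]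

end Equivariance

end Fermat.Agent.GF.Trop

end
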