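/-
GATE-F (S40) / node GF-TROP, file 8 (helper86): **the two reduction maps on the finite parts of the
modular nodal frame** (`q ∥ N`, `A | q`; `q = p` in GATE-F), GRAPH v1 (5791) R5.

* `Vf1FN (q := q) N A P = ker m`, `Vf2FN N A h Q = ker n` (the finite parts for the two components);
* `redKum1FN : Vf1FN →+ Additive (Kum 𝕜 (FresBar N A) q)`, `[u] ↦ [red₁ u]`, `redKum1FN_mk`;
  `redKum2FN : Vf2FN →+ Additive (Kum 𝕜 (FresBar N A) q)`, `[u] ↦ [red₂ u]`, `redKum2FN_mk`;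
* `redKum1FN_eq_zero_iff : redKum1FN x = 0 ↔ x ∈ kerRed N A q` (`= ker r₁` of `GK/UqKronecker`),
  `redKum2FN_eq_zero_iff : redKum2FN x = 0 ↔ x ∈ kerRed₂ h A q`;
* `gal_mem_Vf1FN`, `redKum1FN_gal` (and the second component): stability and INVARIANCE under the
  inertia group of `A`;
* `trop2FN_eq_trop1FN_wAut` : `n_s(x) = ord_{Q s} (red₁ (W_q u_x))`, i.e. the second tropical map is
  the first one (at the places `Q s`) after the Atkin–Lehner involution `autEnd (wAut h) q`.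
-/
import Fermat.Agent.GF.Trop.RedKumAut
import Fermat.Agent.GF.Trop.Modular

set_option autoImplicit false
set_option linter.unusedSectionVars false
set_option linter.style.haveILetI false

noncomputable section

namespace Fermat.Agent.GF.Trop

open AlgebraicCurve IntermediateField Module IsLocalRing ModularCurve
open Fermat.Agent.S24 Fermat.Agent.S24_helper62 Fermat.Agent.RRh45 Fermat.Agent.RR
open Fermat.Agent.GJ.J1 Fermat.Agent.GJ.J1.Val
open Fermat.Agent.GJ.KumGroup Fermat.Agent.GJ.Kum.KumType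
open Fermat.Agent.GK.AL Fermat.Agent.GK.MultiVal Fermat.Agent.GK.BallTwo
open Fermat.Agent.GK.NodalGraded
open Fermat.Agent.GS.Nodal.LSR2 Fermat.Agent.GS.Nodal.Inst
open Fermat.Agent.GS.Nodal.ROfSurj2
open Fermat.Agent.GK.UqKronecker

variable {q : ℕ} (N : ℕ) [NeZero N] [NeZero q] (A : ValuationSubring Kbar) (h : ExactDvd q N)

attribute [local instance] finiteResidues_FN hasPrincipalDivisors_FN nonempty_place_FN
  isAlgClosed_res finiteResidues_Fres hasPrincipalDivisors_Fres nonempty_place_Fres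

variable {ι : Type} [Fintype ι] (P Q : ι → Place (ResidueField A) (FresBar N A))

/-- **`V^f` (first component)**: the classes with `m_s = 0` for all `s` -/
def Vf1FN : AddSubgroup (Additive (Kum Kbar (FN N) q)) :=
  Vf (redDataBar N A) (Fermat.Agent.GS.F.unram_redDataBar N A) q P

/-- **`V^f` (second component)**: the classes with `n_s = 0` for all `s` -/
def Vf2FN : AddSubgroup (Additive (Kum Kbar (FN N) q)) :=
  Vf (redData2 N A h) (Fermat.Agent.GS.F.unram_redData2 N A h) q Q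

variable {N A P Q}

omit [NeZero q] in
theorem mem_Vf1FN {x : Additive (Kum Kbar (FN N) q)} :
    x ∈ Vf1FN (q := q) N A P ↔ ∀ j, trop1FN N A P x j = 0 := mem_Vf

omit [NeZero q] in
theorem mem_Vf2FN {x : Additive (Kum Kbar (FN N) q)} :
    x ∈ Vf2FN (q := q) N A h Q ↔ ∀ j, trop2FN N A h Q x j = 0 := mem_Vf

variable {C : Divisor Kbar (FN N)} {C₁ C₂ : Divisor (ResidueField A) (FresBar N A)}
variable {g c : ℤ} {n₀ : ℕ}
variable (H : NodalHyp (redCompatFN N A h) P Q C C₁ C₂ g c n₀)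
variable (hA : A.LiesOverPrime q)

/-- **the first reduction map on `V^f`**, `[u] ↦ [red₁ u]` -/
def redKum1FN : Vf1FN (q := q) N A P →+ Additive (Kum (ResidueField A) (FresBar N A) q) :=
  redKum (tropHyp_FN N A h hA) (Fermat.Agent.GS.Fib.ff2 H) (fun _ hQ' => hQ')

/-- **the second reduction map on `V^f`**, `[u] ↦ [red₂ u]` -/
def redKum2FN : Vf2FN N A h Q →+ Additive (Kum (ResidueField A) (FresBar N A) q) :=
  redKum (tropHyp_FN N A h hA).symm (ff2_symm (Fermat.Agent.GS.Fib.ff2 H)) (fun _ hQ' => hQ')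

include H hA in
/-- for `[u] ∈ V^f` with `u` a unit of the first valuation, `q ∣ div (red₁ u)` -/
theorem redUnit1_mem {u : pDivUnits Kbar (FN N) q}
    (hu : IsU (redDataBar N A) (((u : (FN N)ˣ) : FN N)))
    (hx : Additive.ofMul (Kum.mk u) ∈ Vf1FN (q := q) N A P) :
    redUnit (redDataBar N A) hu ∈ pDivUnits (ResidueField A) (FresBar N A) q :=
  redUnit_mem_pDivUnits (tropHyp_FN N A h hA) (Fermat.Agent.GS.Fib.ff2 H) (fun _ hQ' => hQ') hu hx

include H hA in
/-- for `[u] ∈ V^f` with `u` a unit of the second valuation, `q ∣ div (red₂ u)` -/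
theorem redUnit2_mem {u : pDivUnits Kbar (FN N) q}
    (hu : IsU (redData2 N A h) (((u : (FN N)ˣ) : FN N)))
    (hx : Additive.ofMul (Kum.mk u) ∈ Vf2FN N A h Q) :
    redUnit (redData2 N A h) hu ∈ pDivUnits (ResidueField A) (FresBar N A) q :=
  redUnit_mem_pDivUnits (tropHyp_FN N A h hA).symm (ff2_symm (Fermat.Agent.GS.Fib.ff2 H))
    (fun _ hQ' => hQ') hu hx

/-- **`redKum1FN` on ANY representative which is a unit of the first valuation** -/
theorem redKum1FN_mk {u : pDivUnits Kbar (FN N) q}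
    (hu : IsU (redDataBar N A) (((u : (FN N)ˣ) : FN N)))
    (hx : Additive.ofMul (Kum.mk u) ∈ Vf1FN (q := q) N A P) :
    redKum1FN h H hA ⟨Additive.ofMul (Kum.mk u), hx⟩ =
      Additive.ofMul (Kum.mk ⟨redUnit (redDataBar N A) hu, redUnit1_mem h H hA hu hx⟩) :=
  redKum_mk (tropHyp_FN N A h hA) (Fermat.Agent.GS.Fib.ff2 H) (fun _ hQ' => hQ') hu hx

/-- **`redKum2FN` on ANY representative which is a unit of the second valuation** -/
theorem redKum2FN_mk {u : pDivUnits Kbar (FN N) q}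
    (hu : IsU (redData2 N A h) (((u : (FN N)ˣ) : FN N)))
    (hx : Additive.ofMul (Kum.mk u) ∈ Vf2FN N A h Q) :
    redKum2FN h H hA ⟨Additive.ofMul (Kum.mk u), hx⟩ =
      Additive.ofMul (Kum.mk ⟨redUnit (redData2 N A h) hu, redUnit2_mem h H hA hu hx⟩) :=
  redKum_mk (tropHyp_FN N A h hA).symm (ff2_symm (Fermat.Agent.GS.Fib.ff2 H))
    (fun _ hQ' => hQ') hu hx

/-! ### the kernels -/

omit [NeZero q] in
/-- a class with a principal-unit representative for the first valuation is in `ker r₁`, and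
conversely (constants are `q`-th powers). -/
theorem mem_kerRed_iff_exists_prin (hq : 0 < q) {x : Additive (Kum Kbar (FN N) q)} :
    x ∈ kerRed N A q ↔
      ∃ (u : pDivUnits Kbar (FN N) q) (hu : ((u : (FN N)ˣ) : FN N) ∈ (redDataBar N A).Rw),
        Additive.ofMul (Kum.mk u) = x ∧ (redDataBar N A).red ⟨((u : (FN N)ˣ) : FN N), hu⟩ = 1 := by
  constructor
  · intro hx
    obtain ⟨u, ⟨c, hc0, hm, hred⟩, rfl⟩ := mem_kerRed.mp hx
    obtain ⟨b, hb⟩ := IsAlgClosed.exists_pow_nat_eq c hq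
    have hb0 : b ≠ 0 := by
      rintro rfl
      rw [zero_pow hq.ne'] at hb
      exact hc0 hb.symm
    have hbF : algebraMap Kbar (FN N) b ≠ 0 := by simpa using hb0
    let wu : (FN N)ˣ := Units.mk0 (algebraMap Kbar (FN N) b) hbF
    have hmem : (wu⁻¹) ^ q ∈ pDivUnits Kbar (FN N) q := pow_mem_pDivUnits Kbar (FN N) q _
    let u' : pDivUnits Kbar (FN N) q := u * ⟨(wu⁻¹) ^ q, hmem⟩
    have hu'F : ((u' : (FN N)ˣ) : FN N) = ((u : (FN N)ˣ) : FN N) / algebraMap Kbar (FN N) c := by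
      show ((u : (FN N)ˣ) : FN N) * (((wu⁻¹) ^ q : (FN N)ˣ) : FN N) = _
      rw [Units.val_pow_eq_pow_val, Units.val_inv_eq_inv_val]
      show ((u : (FN N)ˣ) : FN N) * ((algebraMap Kbar (FN N) b)⁻¹) ^ q = _
      rw [inv_pow, ← map_pow, hb, div_eq_mul_inv]
    refine ⟨u', by rw [hu'F]; exact hm, ?_, ?_⟩
    · show Additive.ofMul _ = Additive.ofMul _
      congr 1
      rw [eq_comm, Kum.mk_eq_mk_iff]
      exact ⟨wu⁻¹, rfl⟩
    · have e : (⟨((u' : (FN N)ˣ) : FN N), by rw [hu'F]; exact hm⟩ : (redDataBar N A).Rw) =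
          ⟨((u : (FN N)ˣ) : FN N) / algebraMap Kbar (FN N) c, hm⟩ := Subtype.ext hu'F
      rw [e]
      exact Subtype.ext hred
  · rintro ⟨u, hu, rfl, hred⟩
    refine mem_kerRed.mpr ⟨u, ⟨1, one_ne_zero, ?_⟩, rfl⟩
    rw [map_one, div_one]
    exact ⟨hu, congrArg Subtype.val hred⟩

/-- **`ker (redKum1FN) = ker r₁`** (`kerRed N A q` of `GK/UqKronecker`) -/
theorem redKum1FN_eq_zero_iff (x : Vf1FN (q := q) N A P) :
    redKum1FN h H hA x = 0 ↔ x.1 ∈ kerRed N A q := by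
  rw [mem_kerRed_iff_exists_prin h.prime.pos]
  exact redKum_eq_zero_iff (tropHyp_FN N A h hA) (Fermat.Agent.GS.Fib.ff2 H) (fun _ hQ' => hQ') x

omit [NeZero q] in
/-- the analogue of `mem_kerRed_iff_exists_prin` for the second valuation -/
theorem mem_kerRed₂_iff_exists_prin (hq : 0 < q) {x : Additive (Kum Kbar (FN N) q)} :
    x ∈ kerRed₂ h A q ↔
      ∃ (u : pDivUnits Kbar (FN N) q) (hu : ((u : (FN N)ˣ) : FN N) ∈ (redData2 N A h).Rw),
        Additive.ofMul (Kum.mk u) = x ∧ (redData2 N A h).red ⟨((u : (FN N)ˣ) : FN N), hu⟩ = 1 := by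
  rw [mem_kerRed₂_iff, mem_kerRed_iff_exists_prin hq]
  constructor
  · rintro ⟨u, hu, hux, hred⟩
    -- `x = W (W x) = W [u] = [W u]`
    have hx : x = autEnd (wAut h : FN N ≃ₐ[Kbar] FN N) q (Additive.ofMul (Kum.mk u)) := by
      rw [hux, autEnd_wAut_autEnd_wAut]
    rw [autEnd_mk] at hx
    have hm2 : ((autUnits (wAut h : FN N ≃ₐ[Kbar] FN N) (u : (FN N)ˣ) : (FN N)ˣ) : FN N) ∈
        (redData2 N A h).Rw := by
      show wAut h ((u : (FN N)ˣ) : FN N) ∈ (redData2 N A h).Rw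
      rw [wAut_mem_Rw2_iff]
      exact hu
    refine ⟨⟨autUnits (wAut h : FN N ≃ₐ[Kbar] FN N) u, autUnits_mem _ q _ u.2⟩, hm2, hx.symm, ?_⟩
    rw [red2_eq]
    have e : (⟨wAut h (wAut h ((u : (FN N)ˣ) : FN N)), hm2⟩ : (redDataBar N A).Rw) =
        ⟨((u : (FN N)ˣ) : FN N), hu⟩ := Subtype.ext (wAut_wAut h _)
    exact (congrArg (redDataBar N A).red e).trans hred
  · rintro ⟨u, hu, rfl, hred⟩
    rw [autEnd_mk]
    have hm1 : wAut h ((u : (FN N)ˣ) : FN N) ∈ (redDataBar N A).Rw := hu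
    exact ⟨⟨autUnits (wAut h : FN N ≃ₐ[Kbar] FN N) u, autUnits_mem _ q _ u.2⟩, hm1, rfl, hred⟩

/-- **`ker (redKum2FN) = ker r₂`** (`kerRed₂ h A q` of `GK/UqKroneckerU`) -/
theorem redKum2FN_eq_zero_iff (x : Vf2FN N A h Q) :
    redKum2FN h H hA x = 0 ↔ x.1 ∈ kerRed₂ h A q := by
  rw [mem_kerRed₂_iff_exists_prin h h.prime.pos]
  exact redKum_eq_zero_iff (tropHyp_FN N A h hA).symm (ff2_symm (Fermat.Agent.GS.Fib.ff2 H))
    (fun _ hQ' => hQ') x

/-! ### invariance under inertia -/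

omit [NeZero q] in
/-- `V^f` (first component) is stable under the inertia group of `A` -/
theorem gal_mem_Vf1FN {τ : Kbar ≃ₐ[ℚ] Kbar} (hτ : τ ∈ A.inertiaSubgroupIn ℚ)
    {x : Additive (Kum Kbar (FN N) q)} (hx : x ∈ Vf1FN (q := q) N A P) :
    gal N q τ x ∈ Vf1FN (q := q) N A P := by
  rw [mem_Vf1FN] at hx ⊢
  intro j
  rw [trop1FN_gal N A hτ]
  exact hx j

omit [NeZero q] in
/-- `V^f` (second component) is stable under the inertia group of `A` -/
theorem gal_mem_Vf2FN {τ : Kbar ≃ₐ[ℚ] Kbar} (hτ : τ ∈ A.inertiaSubgroupIn ℚ)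
    {x : Additive (Kum Kbar (FN N) q)} (hx : x ∈ Vf2FN N A h Q) :
    gal N q τ x ∈ Vf2FN N A h Q := by
  rw [mem_Vf2FN] at hx ⊢
  intro j
  rw [trop2FN_gal N A h hτ]
  exact hx j

/-- **the first reduction map is invariant under the inertia group of `A`** -/
theorem redKum1FN_gal {τ : Kbar ≃ₐ[ℚ] Kbar} (hτ : τ ∈ A.inertiaSubgroupIn ℚ)
    (x : Vf1FN (q := q) N A P) :
    redKum1FN h H hA ⟨gal N q τ x.1, gal_mem_Vf1FN hτ x.2⟩ = redKum1FN h H hA x := by
  have hτd := Fermat.Agent.S05.mem_decompositionSubgroup_of_mem_inertiaSubgroupIn hτ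
  have hb : (Fermat.Agent.GS.Gal.PairAct.decompRedAut1 N A τ hτd).b = 1 :=
    Fermat.Agent.GH.Gal.fresAut_of_inertia A (modularFunctionFieldFull N) (hasGaussFrac_bar N A) hτ
  exact redKum_kumEnd (tropHyp_FN N A h hA) (Fermat.Agent.GS.Fib.ff2 H) (fun _ hQ' => hQ')
    (Fermat.Agent.GS.Gal.PairAct.decompRedAut1 N A τ hτd) hb (galUnits N τ)
    (galUnits_mem N q τ) (fun u => rfl) x

/-- **the second reduction map is invariant under the inertia group of `A`** -/
theorem redKum2FN_gal {τ : Kbar ≃ₐ[ℚ] Kbar} (hτ : τ ∈ A.inertiaSubgroupIn ℚ)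
    (x : Vf2FN N A h Q) :
    redKum2FN h H hA ⟨gal N q τ x.1, gal_mem_Vf2FN h hτ x.2⟩ = redKum2FN h H hA x := by
  have hτd := Fermat.Agent.S05.mem_decompositionSubgroup_of_mem_inertiaSubgroupIn hτ
  have hb : (Fermat.Agent.GS.Gal.PairAct.decompRedAut2 N A h τ hτd).b = 1 :=
    Fermat.Agent.GS.Gal.PairAct.decompRedAut2_b_of_inertia N A h hτ
  exact redKum_kumEnd (tropHyp_FN N A h hA).symm (ff2_symm (Fermat.Agent.GS.Fib.ff2 H))
    (fun _ hQ' => hQ') (Fermat.Agent.GS.Gal.PairAct.decompRedAut2 N A h τ hτd) hb (galUnits N τ)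
    (galUnits_mem N q τ) (fun u => rfl) x

/-! ### the second tropical map through the Atkin–Lehner involution -/

omit [NeZero q] in
/-- `ordRed` for the second valuation is `ordRed` for the first one after `W_q` -/
theorem ordRed2_eq_ordRed1_wAut (Pl : Place (ResidueField A) (FresBar N A)) {u : FN N}
    (hu : u ≠ 0) :
    ordRed (redData2 N A h) (Fermat.Agent.GS.F.unram_redData2 N A h) Pl u =
      ordRed (redDataBar N A) (Fermat.Agent.GS.F.unram_redDataBar N A) Pl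
        ((wAut h : FN N ≃ₐ[Kbar] FN N) u) := by
  obtain ⟨c, hc0, hm, hmi⟩ := Fermat.Agent.GS.F.unram_redData2 N A h u hu
  have hcF : algebraMap Kbar (FN N) c ≠ 0 := by simpa using hc0
  have hU2 : IsU (redData2 N A h) (algebraMap Kbar (FN N) c * u) := ⟨mul_ne_zero hcF hu, hm, hmi⟩
  have hWu : (wAut h : FN N ≃ₐ[Kbar] FN N) u ≠ 0 := by
    rwa [Ne, EmbeddingLike.map_eq_zero_iff]
  have ew : (wAut h : FN N ≃ₐ[Kbar] FN N) (algebraMap Kbar (FN N) c * u) =
      algebraMap Kbar (FN N) c * (wAut h : FN N ≃ₐ[Kbar] FN N) u := by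
    rw [map_mul, AlgEquiv.commutes]
  have hU1 : IsU (redDataBar N A)
      (algebraMap Kbar (FN N) c * (wAut h : FN N ≃ₐ[Kbar] FN N) u) := by
    refine ⟨mul_ne_zero hcF hWu, ?_, ?_⟩
    · rw [← ew]
      exact hm
    · rw [← ew, ← map_inv₀]
      exact hmi
  rw [ordRed_eq _ Pl hu hU2, ordRed_eq _ Pl hWu hU1, red2_eq]
  congr 2
  exact Subtype.ext ew

omit [NeZero q] in
/-- **`n_s(x) = m'_s(W_q x)`**: the second tropical map is the first one, at the places `Q s`,
after the Atkin–Lehner involution. -/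
theorem trop2FN_eq_trop1FN_wAut (x : Additive (Kum Kbar (FN N) q)) :
    trop2FN N A h Q x = trop1FN N A Q (autEnd (wAut h : FN N ≃ₐ[Kbar] FN N) q x) := by
  obtain ⟨u, rfl⟩ := exists_rep x
  funext j
  rw [autEnd_mk]
  show trop (redData2 N A h) _ q Q (Additive.ofMul (Kum.mk u)) j =
    trop (redDataBar N A) _ q Q (Additive.ofMul (Kum.mk _)) j
  rw [trop_mk, trop_mk, ordRed2_eq_ordRed1_wAut h (Q j) (u : (FN N)ˣ).ne_zero]
  rfl

end Fermat.Agent.GF.Trop

end
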